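import Mathlib.NumberTheory.NumberField.CanonicalEmbedding.FundamentalCone
import Mathlib.NumberTheory.NumberField.Units.Regulator
import Mathlib.NumberTheory.NumberField.Discriminant.Defs
import Mathlib.NumberTheory.NumberField.ClassNumber
import Mathlib.RingTheory.DedekindDomain.Ideal.Lemmas
import Mathlib.Analysis.SpecialFunctions.Pow.Real
import Fermat.Agent.Lib.ZetaPrimesDefs

/-!
# Package SI of the CFT lane (S55/E4): the second inequality with modulus, analytic form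

Owner: helper31 (planner of the lane: helper62).

`F ⊆ L` number fields, `𝔪 ≠ 0` an ideal of `𝓞 F`, `ψ` a map from the ideals of `𝓞 F` to a finite
abelian group `A` which is multiplicative on the nonzero ideals prime to `𝔪`, trivial on the
principal ideals `(a)` with `a ≡ 1 mod 𝔪`, and onto (`IsRayMap 𝔪 ψ`; i.e. `A` is a quotient of
the ray class group mod `𝔪`, without conditions at the real places).  If `ψ(𝔭) = 1` for every prime
`𝔭 ∤ 𝔪` of `F` lying under a prime of `L` of absolute degree one (norm outside a finite set `T`),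
then `|A| ≤ [L : F]` (`Stmt_T2m`).

Sub-interfaces:

* `Stmt_GenCount`   : a nonzero principal ideal has exactly `w_F` generators in the fundamental cone;
* `Stmt_CosetCount` : number of `x ∈ J`, `x ≡ r mod 𝔪`, in the fundamental cone, of norm `≤ c`
  is `c κ₀ / (N J N 𝔪) + O(c^{1-1/n})`;
* `Stmt_RayCount`   : number of ideals `I` prime to `𝔪` with `ψ I = x` and `N I ≤ t` is
  `κ t + O(t^{1-1/n})`, `κ > 0` independent of `x`;
* `Stmt_MultSum`    : for a multiplicative `f` on ideals, `‖f‖ ≤ 1`, with partial sums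
  `O(n^{1-δ})`: `Re ∑_𝔭 f(𝔭) N𝔭^{-s}` is bounded above on `(1, 2]`.
-/

namespace Fermat.Agent.Lib.SecondIneq

open NumberField Ideal IsDedekindDomain NumberField.mixedEmbedding
open Fermat.Agent.Lib.ZetaPrimes

/-- `ψ` is a ray class map mod `𝔪`: multiplicative on the nonzero ideals prime to `𝔪`, trivial on
the principal ideals generated by elements `≡ 1 mod 𝔪`, and onto. -/
structure IsRayMap {F : Type*} [Field F] [NumberField F] (𝔪 : Ideal (𝓞 F))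
    {A : Type*} [CommGroup A] (ψ : Ideal (𝓞 F) → A) : Prop where
  map_mul : ∀ 𝔞 𝔟 : Ideal (𝓞 F), 𝔞 ≠ ⊥ → 𝔟 ≠ ⊥ → IsCoprime 𝔞 𝔪 → IsCoprime 𝔟 𝔪 →
    ψ (𝔞 * 𝔟) = ψ 𝔞 * ψ 𝔟
  map_ray : ∀ a : 𝓞 F, a ≠ 0 → a - 1 ∈ 𝔪 → ψ (Ideal.span {a}) = 1
  surj : ∀ x : A, ∃ 𝔞 : Ideal (𝓞 F), 𝔞 ≠ ⊥ ∧ IsCoprime 𝔞 𝔪 ∧ ψ 𝔞 = x

/-- **T2m** (second inequality with modulus, analytic form). -/
def Stmt_T2m : Prop :=
  ∀ (F L : Type) [Field F] [NumberField F] [Field L] [NumberField L] [Algebra F L]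
    (𝔪 : Ideal (𝓞 F)) (A : Type) [CommGroup A] [Finite A] (ψ : Ideal (𝓞 F) → A) (T : Finset ℕ),
    𝔪 ≠ ⊥ → IsRayMap 𝔪 ψ →
    (∀ Q : Ideal (𝓞 L), Q.IsPrime → (Ideal.absNorm Q).Prime → Ideal.absNorm Q ∉ T →
      IsCoprime (Q.under (𝓞 F)) 𝔪 → ψ (Q.under (𝓞 F)) = 1) →
    Nat.card A ≤ Module.finrank F L

/-- The density of the points of `𝓞 F` in the norm-one part of the fundamental cone:
`2^r₁ (2π)^r₂ Reg / √|d|`. -/
noncomputable def coneDensity (F : Type*) [Field F] [NumberField F] : ℝ :=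
  (2 ^ InfinitePlace.nrRealPlaces F * (2 * Real.pi) ^ InfinitePlace.nrComplexPlaces F *
    Units.regulator F) / Real.sqrt |(discr F : ℝ)|

/-- **GenCount**: a nonzero principal ideal has exactly `w_F` generators in the fundamental
cone. -/
def Stmt_GenCount : Prop :=
  ∀ (F : Type) [Field F] [NumberField F] (I : Ideal (𝓞 F)), I ≠ ⊥ → I.IsPrincipal →
    Nat.card {x : 𝓞 F // mixedEmbedding F (x : F) ∈ fundamentalCone F ∧ Ideal.span {x} = I} =
      Units.torsionOrder F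

/-- **CosetCount**: the elements of the coset `{x ∈ J : x ≡ r mod 𝔪}` (`J`, `𝔪` coprime) in the
fundamental cone, of norm `≤ c`: main term `c κ₀ / (N J N 𝔪)`, error `O(c^{1 - 1/n})`. -/
def Stmt_CosetCount : Prop :=
  ∀ (F : Type) [Field F] [NumberField F] (𝔪 J : Ideal (𝓞 F)) (r : 𝓞 F),
    𝔪 ≠ ⊥ → J ≠ ⊥ → IsCoprime J 𝔪 →
    ∃ C : ℝ, ∀ c : ℝ, 1 ≤ c →
      |(Nat.card {x : 𝓞 F // mixedEmbedding F (x : F) ∈ fundamentalCone F ∧ x ∈ J ∧ x - r ∈ 𝔪 ∧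
          mixedEmbedding.norm (mixedEmbedding F (x : F)) ≤ c} : ℝ)
        - c * (coneDensity F / ((absNorm J : ℝ) * (absNorm 𝔪 : ℝ)))|
        ≤ C * c ^ (1 - (Module.finrank ℚ F : ℝ)⁻¹)

/-- **RayCount**: the ideals prime to `𝔪` in a fibre of a ray class map, of norm `≤ t`:
main term `κ t` with `κ > 0` independent of the fibre, error `O(t^{1 - 1/n})`. -/
def Stmt_RayCount : Prop :=
  ∀ (F : Type) [Field F] [NumberField F] (𝔪 : Ideal (𝓞 F)) (A : Type) [CommGroup A] [Finite A]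
    (ψ : Ideal (𝓞 F) → A), 𝔪 ≠ ⊥ → IsRayMap 𝔪 ψ →
    ∃ κ C : ℝ, 0 < κ ∧ ∀ (x : A) (t : ℝ), 1 ≤ t →
      |(Nat.card {I : Ideal (𝓞 F) // I ≠ ⊥ ∧ IsCoprime I 𝔪 ∧ ψ I = x ∧
          (absNorm I : ℝ) ≤ t} : ℝ) - κ * t|
        ≤ C * t ^ (1 - (Module.finrank ℚ F : ℝ)⁻¹)

/-- **MultSum**: for a multiplicative function `f` on the ideals of `𝓞 F` with `‖f‖ ≤ 1` whose
partial sums over the nonzero ideals of norm `≤ n` are `O(n^{1-δ})`, the real part of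
`∑_𝔭 f(𝔭) N𝔭^{-s}` is bounded above on `(1, 2]`. -/
def Stmt_MultSum : Prop :=
  ∀ (F : Type) [Field F] [NumberField F] (f : Ideal (𝓞 F) →*₀ ℂ) (δ B : ℝ),
    0 < δ → (∀ I, ‖f I‖ ≤ 1) →
    (∀ n : ℕ, 1 ≤ n → ∀ S : Finset (Ideal (𝓞 F)),
      (∀ I, I ∈ S ↔ I ≠ ⊥ ∧ absNorm I ≤ n) → ‖∑ I ∈ S, f I‖ ≤ B * (n : ℝ) ^ (1 - δ)) →
    ∃ C : ℝ, ∀ s : ℝ, 1 < s → s ≤ 2 →
      (∑' v : HeightOneSpectrum (𝓞 F), f v.asIdeal * ((primeTerm F s v : ℝ) : ℂ)).re ≤ C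

end Fermat.Agent.Lib.SecondIneq
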