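import Fermat.Agent.Lib.SecondIneq.Defs
import Fermat.Agent.Lib.ClassLSeriesBound

/-!
# Package SI-L: L-series of a bounded multiplicative function on ideals (helper31)

Generalisation of `Lib/ClassLSeries.lean`, `Lib/ClassLSeriesBound.lean` from class group
characters to an arbitrary `f : Ideal (𝓞 K) →*₀ ℂ` with `‖f‖ ≤ 1`:

* `hasProd_lValueF` : Euler product of `L(s, f) = ∑_I f(I) N(I)^{-s}`;
* `re_tsum_fPrimeTerm_le` : `‖L(s,f)‖ ≤ B → Re ∑_𝔭 f(𝔭) N𝔭^{-s} ≤ log B + ∑_𝔭 N𝔭^{-2}`;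
* `norm_lValueF_le` : partial sums `O(n^{1-δ})` ⟹ `‖L(s,f)‖` bounded on `(1,2]`;
* `stmt_MultSum : Stmt_MultSum`.
-/

namespace Fermat.Agent.Lib.SecondIneq.H31

open NumberField IsDedekindDomain Filter Topology Ideal nonZeroDivisors
open Fermat.Agent.Lib.ZetaPrimes

variable {K : Type*} [Field K] [NumberField K]

/-- The terms of the L-series of `f`. -/
noncomputable def lTermF (f : Ideal (𝓞 K) →*₀ ℂ) (s : ℝ) (I : Ideal (𝓞 K)) : ℂ :=
  f I * ((normPow K s I : ℝ) : ℂ)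

/-- The terms of the L-series of `f`, as a monoid-with-zero hom. -/
noncomputable def lTermHomF (f : Ideal (𝓞 K) →*₀ ℂ) (s : ℝ) (hs : s ≠ 0) :
    Ideal (𝓞 K) →*₀ ℂ :=
  f * normPowHomC K s hs

lemma lTermHomF_apply (f : Ideal (𝓞 K) →*₀ ℂ) (s : ℝ) (hs : s ≠ 0) (I : Ideal (𝓞 K)) :
    lTermHomF f s hs I = lTermF f s I := rfl

section

variable (f : Ideal (𝓞 K) →*₀ ℂ) (hf : ∀ I, ‖f I‖ ≤ 1)

include hf

lemma norm_lTermF_le (s : ℝ) (I : Ideal (𝓞 K)) : ‖lTermF f s I‖ ≤ normPow K s I := by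
  rw [lTermF, norm_mul, Complex.norm_real, Real.norm_of_nonneg (normPow_nonneg K s I)]
  calc ‖f I‖ * normPow K s I ≤ 1 * normPow K s I :=
        mul_le_mul_of_nonneg_right (hf I) (normPow_nonneg K s I)
    _ = normPow K s I := one_mul _

lemma summable_norm_lTermF {s : ℝ} (hs : 1 < s) :
    Summable (fun I : Ideal (𝓞 K) ↦ ‖lTermF f s I‖) :=
  Summable.of_nonneg_of_le (fun _ ↦ norm_nonneg _) (norm_lTermF_le f hf s) (summable_normPow K hs)

lemma summable_lTermF {s : ℝ} (hs : 1 < s) : Summable (lTermF f s) :=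
  (summable_norm_lTermF f hf hs).of_norm

end

/-- The L-function of `f` at real `s > 1`. -/
noncomputable def lValueF (f : Ideal (𝓞 K) →*₀ ℂ) (s : ℝ) : ℂ :=
  ∑' I : Ideal (𝓞 K), lTermF f s I

/-- The prime terms `f(𝔭) N𝔭^{-s}`. -/
noncomputable def fPrimeTerm (f : Ideal (𝓞 K) →*₀ ℂ) (s : ℝ)
    (v : HeightOneSpectrum (𝓞 K)) : ℂ :=
  f v.asIdeal * ((primeTerm K s v : ℝ) : ℂ)

lemma lTermF_asIdeal (f : Ideal (𝓞 K) →*₀ ℂ) (s : ℝ) (v : HeightOneSpectrum (𝓞 K)) :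
    lTermF f s v.asIdeal = fPrimeTerm f s v := by
  rw [lTermF, fPrimeTerm, primeTerm_eq]

section

variable (f : Ideal (𝓞 K) →*₀ ℂ) (hf : ∀ I, ‖f I‖ ≤ 1)

include hf

lemma norm_fPrimeTerm_le (s : ℝ) (v : HeightOneSpectrum (𝓞 K)) :
    ‖fPrimeTerm f s v‖ ≤ primeTerm K s v := by
  rw [fPrimeTerm, norm_mul, Complex.norm_real, Real.norm_of_nonneg (primeTerm_nonneg K s v)]
  calc ‖f v.asIdeal‖ * primeTerm K s v ≤ 1 * primeTerm K s v :=
        mul_le_mul_of_nonneg_right (hf _) (primeTerm_nonneg K s v)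
    _ = primeTerm K s v := one_mul _

lemma summable_fPrimeTerm {s : ℝ} (hs : 1 < s) : Summable (fPrimeTerm f s) := by
  refine Summable.of_norm ?_
  exact Summable.of_nonneg_of_le (fun _ ↦ norm_nonneg _) (norm_fPrimeTerm_le f hf s)
    (summable_primeTerm K s hs)

/-- Euler product for `L(s, f)`. -/
theorem hasProd_lValueF {s : ℝ} (hs : 1 < s) :
    HasProd (fun v : HeightOneSpectrum (𝓞 K) ↦ (1 - fPrimeTerm f s v)⁻¹) (lValueF f s) := by
  have hs0 : s ≠ 0 := (zero_lt_one.trans hs).ne'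
  have h := IdealEuler.hasProd_ideal (lTermHomF f s hs0) (summable_norm_lTermF f hf hs)
  simp only [lTermHomF_apply, lTermF_asIdeal] at h
  exact h

/-- If `‖L(s, f)‖ ≤ B` then `Re ∑_𝔭 f(𝔭) N𝔭^{-s} ≤ log B + ∑_𝔭 N𝔭^{-2}`. -/
theorem re_tsum_fPrimeTerm_le {s : ℝ} (hs : 1 < s) {B : ℝ} (hB : ‖lValueF f s‖ ≤ B) :
    (∑' v, fPrimeTerm f s v).re ≤ Real.log B + ∑' v, primeTerm K 2 v := by
  have hsum := summable_fPrimeTerm f hf hs
  have hsq : ∀ v : HeightOneSpectrum (𝓞 K), ‖fPrimeTerm f s v‖ ^ 2 ≤ primeTerm K (2 * s) v := by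
    intro v
    have h1 := norm_fPrimeTerm_le f hf s v
    have h3 : primeTerm K s v ^ 2 = primeTerm K (2 * s) v := by
      have hN : (0 : ℝ) ≤ absNorm v.asIdeal := Nat.cast_nonneg _
      rw [primeTerm, primeTerm, ← Real.rpow_natCast, ← Real.rpow_mul hN]
      congr 1
      push_cast
      ring
    rw [← h3]
    exact pow_le_pow_left₀ (norm_nonneg _) h1 2
  have hsum2 : Summable (fun v : HeightOneSpectrum (𝓞 K) ↦ ‖fPrimeTerm f s v‖ ^ 2) :=
    Summable.of_nonneg_of_le (fun _ ↦ sq_nonneg _) hsq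
      (summable_primeTerm K (2 * s) (by linarith))
  have hre : HasSum (fun v ↦ (fPrimeTerm f s v).re) (∑' v, fPrimeTerm f s v).re :=
    Complex.hasSum_re hsum.hasSum
  have hS : HasSum (fun v ↦ (fPrimeTerm f s v).re - ‖fPrimeTerm f s v‖ ^ 2)
      ((∑' v, fPrimeTerm f s v).re - ∑' v, ‖fPrimeTerm f s v‖ ^ 2) :=
    hre.sub hsum2.hasSum
  have hS' : Tendsto (fun T : Finset (HeightOneSpectrum (𝓞 K)) ↦
      Real.exp (∑ v ∈ T, ((fPrimeTerm f s v).re - ‖fPrimeTerm f s v‖ ^ 2))) atTop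
      (𝓝 (Real.exp ((∑' v, fPrimeTerm f s v).re - ∑' v, ‖fPrimeTerm f s v‖ ^ 2))) :=
    (Real.continuous_exp.tendsto _).comp hS
  have hP : Tendsto (fun T : Finset (HeightOneSpectrum (𝓞 K)) ↦
      ‖∏ v ∈ T, (1 - fPrimeTerm f s v)⁻¹‖) atTop (𝓝 ‖lValueF f s‖) :=
    (continuous_norm.tendsto _).comp (hasProd_lValueF f hf hs)
  have hne : ∀ v, fPrimeTerm f s v ≠ 1 := by
    intro v h
    have h1 := norm_fPrimeTerm_le f hf s v
    rw [h, norm_one] at h1
    have := primeTerm_le_half K hs.le v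
    linarith
  have hle : Real.exp ((∑' v, fPrimeTerm f s v).re - ∑' v, ‖fPrimeTerm f s v‖ ^ 2) ≤
      ‖lValueF f s‖ := by
    refine le_of_tendsto_of_tendsto' hS' hP (fun T ↦ ?_)
    rw [Real.exp_sum, norm_prod]
    exact Finset.prod_le_prod (fun v _ ↦ (Real.exp_pos _).le)
      (fun v _ ↦ exp_le_norm_inv_one_sub (hne v))
  have hBpos : 0 < B := lt_of_lt_of_le (Real.exp_pos _) (hle.trans hB)
  have h3 : (∑' v, fPrimeTerm f s v).re - ∑' v, ‖fPrimeTerm f s v‖ ^ 2 ≤ Real.log B := by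
    rw [Real.le_log_iff_exp_le hBpos]
    exact hle.trans hB
  have h4 : ∑' v, ‖fPrimeTerm f s v‖ ^ 2 ≤ ∑' v, primeTerm K 2 v := by
    refine hsum2.tsum_le_tsum (fun v ↦ ?_) (summable_primeTerm K 2 (by norm_num))
    exact (hsq v).trans (primeTerm_anti K (by linarith) v)
  linarith

end

/-- The coefficients of the L-series of `f`. -/
noncomputable def lCoeffF (f : Ideal (𝓞 K) →*₀ ℂ) (n : ℕ) : ℂ :=
  ∑' I : {I : Ideal (𝓞 K) // absNorm I = n}, f I

section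

variable (f : Ideal (𝓞 K) →*₀ ℂ) (hf : ∀ I, ‖f I‖ ≤ 1)

include hf in
/-- `L(s, f)` is the sum of the L-series with coefficients `lCoeffF f`. -/
theorem hasSum_term_lCoeffF {s : ℝ} (hs : 1 < s) :
    HasSum (LSeries.term (lCoeffF f) (s : ℂ)) (lValueF f s) := by
  have hF : HasSum (lTermF f s) (lValueF f s) := (summable_lTermF f hf hs).hasSum
  rw [← (Equiv.sigmaFiberEquiv (fun I : Ideal (𝓞 K) ↦ absNorm I)).hasSum_iff] at hF
  refine HasSum.sigma hF (fun n ↦ ?_)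
  have hc : ∀ I : {I : Ideal (𝓞 K) // absNorm I = n},
      (lTermF f s ∘ (Equiv.sigmaFiberEquiv (fun I : Ideal (𝓞 K) ↦ absNorm I))) ⟨n, I⟩ =
        f I * (((n : ℝ) ^ (-s) : ℝ) : ℂ) := by
    intro I
    simp [lTermF, normPow, I.2]
  simp_rw [hc]
  have h1 : HasSum (fun I : {I : Ideal (𝓞 K) // absNorm I = n} ↦ f (I : Ideal (𝓞 K)))
      (lCoeffF f n) := (Summable.of_finite).hasSum
  have h2 := h1.mul_right (((n : ℝ) ^ (-s) : ℝ) : ℂ)
  have hterm : LSeries.term (lCoeffF f) (s : ℂ) n =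
      lCoeffF f n * (((n : ℝ) ^ (-s) : ℝ) : ℂ) := by
    rw [LSeries.term]
    split_ifs with hn
    · simp [hn, Real.zero_rpow (neg_ne_zero.mpr (zero_lt_one.trans hs).ne')]
    · rw [Complex.ofReal_cpow (Nat.cast_nonneg _), Complex.ofReal_neg, Complex.cpow_neg,
        div_eq_mul_inv, Complex.ofReal_natCast]
  rw [hterm]
  exact h2

include hf in
theorem lseriesSummable_lCoeffF {s : ℝ} (hs : 1 < s) :
    LSeriesSummable (lCoeffF f) (s : ℂ) :=
  (hasSum_term_lCoeffF f hf hs).summable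

include hf in
theorem lValueF_eq_LSeries {s : ℝ} (hs : 1 < s) :
    lValueF f s = LSeries (lCoeffF f) (s : ℂ) :=
  (hasSum_term_lCoeffF f hf hs).tsum_eq.symm

/-- Partial sums of the coefficients as a sum over ideals. -/
theorem sum_lCoeffF_eq_sum_idealsLe (n : ℕ) :
    ∑ k ∈ Finset.Icc 1 n, lCoeffF f k = ∑ I ∈ idealsLe K n, f I := by
  classical
  have h1 : ∀ k ∈ Finset.Icc 1 n, lCoeffF f k =
      ∑ I ∈ idealsLe K n, if absNorm I = k then f I else 0 := by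
    intro k hk
    have h0 : lCoeffF f k = ∑' I : ({I : Ideal (𝓞 K) | absNorm I = k} : Set (Ideal (𝓞 K))),
        f I := rfl
    rw [h0, tsum_subtype {I : Ideal (𝓞 K) | absNorm I = k} (fun I ↦ f I)]
    rw [tsum_eq_sum (s := idealsLe K n)]
    · refine Finset.sum_congr rfl (fun I _ ↦ ?_)
      simp [Set.indicator_apply]
    · intro I hI
      rw [Set.indicator_apply, if_neg]
      intro hIk
      apply hI
      rw [mem_idealsLe']
      have : absNorm I = k := hIk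
      rwa [this]
  rw [Finset.sum_congr rfl h1, Finset.sum_comm]
  refine Finset.sum_congr rfl (fun I hI ↦ ?_)
  rw [Finset.sum_ite_eq, if_pos (mem_idealsLe'.mp hI)]

include hf in
/-- `‖L(s, f)‖` is bounded on `(1, 2]` if the partial sums of `f` are `O(n^{1-δ})`. -/
theorem norm_lValueF_le {δ M : ℝ} (hδ : 0 < δ)
    (hpart : ∀ n : ℕ, 1 ≤ n → ‖∑ I ∈ idealsLe K n, f I‖ ≤ M * (n : ℝ) ^ (1 - δ))
    {s : ℝ} (hs : 1 < s) (hs2 : s ≤ 2) :
    ‖lValueF f s‖ ≤ 2 * M / min δ 1 := by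
  set δ' : ℝ := min δ 1 with hδ'
  have hδ'pos : 0 < δ' := lt_min hδ one_pos
  have hδ'le : δ' ≤ 1 := min_le_right _ _
  have hδ'δ : δ' ≤ δ := min_le_left _ _
  set r : ℝ := 1 - δ' with hr
  have hr0 : 0 ≤ r := by linarith
  have hrs : r < s := by linarith
  have hM0 : 0 ≤ M := by
    have h := hpart 1 le_rfl
    simp only [Nat.cast_one, Real.one_rpow, mul_one] at h
    exact le_trans (norm_nonneg _) h
  have hbound : ∀ n : ℕ, 1 ≤ n → ‖∑ k ∈ Finset.Icc 1 n, lCoeffF f k‖ ≤ M * (n : ℝ) ^ r := by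
    intro n hn
    rw [sum_lCoeffF_eq_sum_idealsLe]
    refine (hpart n hn).trans ?_
    refine mul_le_mul_of_nonneg_left ?_ hM0
    exact Real.rpow_le_rpow_of_exponent_le (by exact_mod_cast hn) (by linarith)
  have hO : (fun n : ℕ ↦ ∑ k ∈ Finset.Icc 1 n, lCoeffF f k) =O[atTop]
      fun n : ℕ ↦ (n : ℝ) ^ r := by
    refine Asymptotics.IsBigO.of_bound M ?_
    filter_upwards [eventually_ge_atTop 1] with n hn
    rw [Real.norm_of_nonneg (Real.rpow_nonneg (Nat.cast_nonneg _) _)]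
    exact hbound n hn
  have hsre : r < (s : ℂ).re := by simpa using hrs
  rw [lValueF_eq_LSeries f hf hs,
    LSeries_eq_mul_integral (lCoeffF f) hr0 hsre (lseriesSummable_lCoeffF f hf hs) hO, norm_mul]
  have hsnorm : ‖(s : ℂ)‖ = s := by
    rw [Complex.norm_real, Real.norm_of_nonneg (by linarith)]
  rw [hsnorm]
  have ha : r - s - 1 < -1 := by linarith
  have hint : MeasureTheory.IntegrableOn (fun t : ℝ ↦ M * t ^ (r - s - 1)) (Set.Ioi 1) :=
    (integrableOn_Ioi_rpow_of_lt ha one_pos).const_mul M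
  have hle : ‖∫ t in Set.Ioi (1 : ℝ), (∑ k ∈ Finset.Icc 1 ⌊t⌋₊, lCoeffF f k) *
      (t : ℂ) ^ (-((s : ℂ) + 1))‖ ≤ ∫ t in Set.Ioi (1 : ℝ), M * t ^ (r - s - 1) := by
    refine MeasureTheory.norm_integral_le_of_norm_le hint ?_
    refine (MeasureTheory.ae_restrict_iff' measurableSet_Ioi).mpr (Filter.Eventually.of_forall ?_)
    intro t ht
    have ht1 : (1 : ℝ) < t := ht
    have ht0 : (0 : ℝ) < t := by linarith
    have hfl : 1 ≤ ⌊t⌋₊ := Nat.floor_pos.mpr ht1.le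
    rw [norm_mul, Complex.norm_cpow_eq_rpow_re_of_pos ht0]
    have hre : (-((s : ℂ) + 1)).re = -(s + 1) := by simp
    rw [hre]
    have h1 : ‖∑ k ∈ Finset.Icc 1 ⌊t⌋₊, lCoeffF f k‖ ≤ M * t ^ r := by
      refine (hbound _ hfl).trans (mul_le_mul_of_nonneg_left ?_ hM0)
      exact Real.rpow_le_rpow (Nat.cast_nonneg _) (Nat.floor_le ht0.le) hr0
    calc ‖∑ k ∈ Finset.Icc 1 ⌊t⌋₊, lCoeffF f k‖ * t ^ (-(s + 1))
        ≤ (M * t ^ r) * t ^ (-(s + 1)) :=
          mul_le_mul_of_nonneg_right h1 (Real.rpow_nonneg ht0.le _)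
      _ = M * t ^ (r - s - 1) := by
          rw [mul_assoc, ← Real.rpow_add ht0]
          congr 2
          ring
  have hval : ∫ t in Set.Ioi (1 : ℝ), M * t ^ (r - s - 1) = M / (s - r) := by
    rw [MeasureTheory.integral_const_mul, integral_Ioi_rpow_of_lt ha one_pos, Real.one_rpow]
    have : r - s - 1 + 1 = -(s - r) := by ring
    rw [this, neg_div_neg_eq, mul_one_div]
  rw [hval] at hle
  have hsr : δ' ≤ s - r := by linarith
  have hsrpos : 0 < s - r := by linarith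
  calc s * ‖∫ t in Set.Ioi (1 : ℝ), (∑ k ∈ Finset.Icc 1 ⌊t⌋₊, lCoeffF f k) *
        (t : ℂ) ^ (-((s : ℂ) + 1))‖
      ≤ s * (M / (s - r)) := mul_le_mul_of_nonneg_left hle (by linarith)
    _ ≤ 2 * (M / δ') := by
        refine mul_le_mul hs2 ?_ (div_nonneg hM0 hsrpos.le) (by norm_num)
        exact div_le_div_of_nonneg_left hM0 hδ'pos hsr
    _ = 2 * M / δ' := by ring

end

/-- **SI-L**: `Stmt_MultSum`. -/
theorem stmt_MultSum : Stmt_MultSum := by
  intro F _ _ f δ B hδ hf hpart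
  have hpart' : ∀ n : ℕ, 1 ≤ n → ‖∑ I ∈ idealsLe F n, f I‖ ≤ B * (n : ℝ) ^ (1 - δ) := by
    intro n hn
    refine hpart n hn (idealsLe F n) (fun I ↦ ?_)
    rw [mem_idealsLe]
    tauto
  refine ⟨Real.log (2 * B / min δ 1) + ∑' v, primeTerm F 2 v, fun s hs hs2 ↦ ?_⟩
  exact re_tsum_fPrimeTerm_le f hf hs (norm_lValueF_le f hf hδ hpart' hs hs2)

end Fermat.Agent.Lib.SecondIneq.H31
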