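import Fermat.Agent.Lib.SecondIneq.H31_RayCount
import Fermat.Agent.Lib.SecondIneq.H31_MultSum
import Mathlib.RingTheory.IntegralDomain

/-!
# Package SI-G, the characters

For a ray class map `ψ : Ideal (𝓞 F) → A` mod `𝔪` and a character `χ ≠ 1` of `A`, the real part of
`∑_{𝔭 ∤ 𝔪} χ(ψ 𝔭) N𝔭^{-s}` is bounded above on `(1, 2]`.
-/

namespace Fermat.Agent.Lib.SecondIneq.H31

open NumberField Ideal IsDedekindDomain
open Fermat.Agent.Lib.ZetaPrimes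

variable {F : Type} [Field F] [NumberField F] {𝔪 : Ideal (𝓞 F)}
  {A : Type} [CommGroup A] {ψ : Ideal (𝓞 F) → A}

lemma norm_unitChar_eq_one [Finite A] (χ : A →* ℂˣ) (g : A) : ‖((χ g : ℂˣ) : ℂ)‖ = 1 := by
  have h : ((χ g : ℂˣ) : ℂ) ^ (orderOf g) = 1 := by
    rw [← Units.val_pow_eq_pow_val, ← map_pow, pow_orderOf_eq_one, map_one, Units.val_one]
  exact Complex.norm_eq_one_of_pow_eq_one h (orderOf_pos g).ne'

lemma psi_one (hψ : IsRayMap 𝔪 ψ) : ψ 1 = 1 := by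
  have h := hψ.map_ray 1 one_ne_zero (by simp)
  rwa [Ideal.span_singleton_one, ← Ideal.one_eq_top] at h

open Classical in
/-- `χ ∘ ψ`, extended by zero to the ideals not prime to `𝔪`. -/
noncomputable def rayChar (hψ : IsRayMap 𝔪 ψ) (χ : A →* ℂˣ) : Ideal (𝓞 F) →*₀ ℂ where
  toFun I := if I ≠ ⊥ ∧ IsCoprime I 𝔪 then ((χ (ψ I) : ℂˣ) : ℂ) else 0
  map_zero' := by simp
  map_one' := by
    have h1 : (1 : Ideal (𝓞 F)) ≠ ⊥ ∧ IsCoprime (1 : Ideal (𝓞 F)) 𝔪 :=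
      ⟨by rw [Ideal.one_eq_top]; exact top_ne_bot, isCoprime_one_left⟩
    rw [if_pos h1, psi_one hψ, map_one, Units.val_one]
  map_mul' I J := by
    by_cases hI : I ≠ ⊥ ∧ IsCoprime I 𝔪
    · by_cases hJ : J ≠ ⊥ ∧ IsCoprime J 𝔪
      · have hIJ : I * J ≠ ⊥ ∧ IsCoprime (I * J) 𝔪 :=
          ⟨mul_ne_zero hI.1 hJ.1, hI.2.mul_left hJ.2⟩
        rw [if_pos hI, if_pos hJ, if_pos hIJ, hψ.map_mul I J hI.1 hJ.1 hI.2 hJ.2, map_mul,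
          Units.val_mul]
      · have hIJ : ¬ (I * J ≠ ⊥ ∧ IsCoprime (I * J) 𝔪) := by
          rintro ⟨h0, hc⟩
          exact hJ ⟨right_ne_zero_of_mul h0, hc.of_mul_left_right⟩
        rw [if_neg hJ, if_neg hIJ, mul_zero]
    · have hIJ : ¬ (I * J ≠ ⊥ ∧ IsCoprime (I * J) 𝔪) := by
        rintro ⟨h0, hc⟩
        exact hI ⟨left_ne_zero_of_mul h0, hc.of_mul_left_left⟩
      rw [if_neg hI, if_neg hIJ, zero_mul]

open Classical in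
lemma rayChar_apply (hψ : IsRayMap 𝔪 ψ) (χ : A →* ℂˣ) (I : Ideal (𝓞 F)) :
    rayChar hψ χ I = if I ≠ ⊥ ∧ IsCoprime I 𝔪 then ((χ (ψ I) : ℂˣ) : ℂ) else 0 := rfl

lemma norm_rayChar_le [Finite A] (hψ : IsRayMap 𝔪 ψ) (χ : A →* ℂˣ) (I : Ideal (𝓞 F)) :
    ‖rayChar hψ χ I‖ ≤ 1 := by
  classical
  rw [rayChar_apply]
  split_ifs
  · exact (norm_unitChar_eq_one χ _).le
  · simp

lemma sum_unitChar_eq_zero [Fintype A] (χ : A →* ℂˣ) (hχ : χ ≠ 1) :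
    ∑ x : A, ((χ x : ℂˣ) : ℂ) = 0 := by
  have h := sum_hom_units_eq_zero ((Units.coeHom ℂ).comp χ) (by
    intro h
    apply hχ
    ext x
    have := congrArg (fun f : A →* ℂ => f x) h
    simpa using this)
  simpa using h

/-- The partial sums of `rayChar` are `O(n^{1-1/d})`. -/
theorem exists_partial_sum_rayChar_le [Finite A] (hRC : Stmt_RayCount) (h𝔪 : 𝔪 ≠ ⊥)
    (hψ : IsRayMap 𝔪 ψ) (χ : A →* ℂˣ) (hχ : χ ≠ 1) :
    ∃ B : ℝ, ∀ n : ℕ, 1 ≤ n → ∀ S : Finset (Ideal (𝓞 F)),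
      (∀ I, I ∈ S ↔ I ≠ ⊥ ∧ absNorm I ≤ n) →
      ‖∑ I ∈ S, rayChar hψ χ I‖ ≤ B * (n : ℝ) ^ (1 - (Module.finrank ℚ F : ℝ)⁻¹) := by
  classical
  letI : Fintype A := Fintype.ofFinite A
  obtain ⟨κ, C, -, hC⟩ := hRC F 𝔪 A ψ h𝔪 hψ
  refine ⟨Fintype.card A * C, fun n hn S hS => ?_⟩
  set e : ℝ := 1 - (Module.finrank ℚ F : ℝ)⁻¹
  -- the number of ideals in a fibre
  have hcount : ∀ x : A, ((S.filter fun I => IsCoprime I 𝔪 ∧ ψ I = x).card : ℝ) =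
      (Nat.card {I : Ideal (𝓞 F) // I ≠ ⊥ ∧ IsCoprime I 𝔪 ∧ ψ I = x ∧
        (absNorm I : ℝ) ≤ (n : ℝ)} : ℝ) := by
    intro x
    congr 1
    rw [← Nat.card_eq_finsetCard]
    refine Nat.card_congr (Equiv.subtypeEquivRight fun I => ?_)
    rw [Finset.mem_filter, hS, Nat.cast_le]
    tauto
  have h1 : ∑ I ∈ S, rayChar hψ χ I =
      ∑ I ∈ S.filter (fun I => IsCoprime I 𝔪), ((χ (ψ I) : ℂˣ) : ℂ) := by
    rw [Finset.sum_filter]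
    refine Finset.sum_congr rfl fun I hI => ?_
    rw [rayChar_apply]
    have hI0 : I ≠ ⊥ := ((hS I).mp hI).1
    by_cases hc : IsCoprime I 𝔪
    · rw [if_pos ⟨hI0, hc⟩, if_pos hc]
    · rw [if_neg (fun h => hc h.2), if_neg hc]
  have h2 : ∑ I ∈ S.filter (fun I => IsCoprime I 𝔪), ((χ (ψ I) : ℂˣ) : ℂ) =
      ∑ x : A, ((S.filter fun I => IsCoprime I 𝔪 ∧ ψ I = x).card : ℂ) * ((χ x : ℂˣ) : ℂ) := by
    rw [← Finset.sum_fiberwise' (S.filter (fun I => IsCoprime I 𝔪)) ψ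
      (fun x => ((χ x : ℂˣ) : ℂ))]
    refine Finset.sum_congr rfl fun x _ => ?_
    rw [Finset.sum_const, nsmul_eq_mul, Finset.filter_filter]
  have h3 : ∑ x : A, ((S.filter fun I => IsCoprime I 𝔪 ∧ ψ I = x).card : ℂ) * ((χ x : ℂˣ) : ℂ) =
      ∑ x : A, ((((S.filter fun I => IsCoprime I 𝔪 ∧ ψ I = x).card : ℝ) - κ * n : ℝ) : ℂ) *
        ((χ x : ℂˣ) : ℂ) := by
    have : ∑ x : A, ((κ * n : ℝ) : ℂ) * ((χ x : ℂˣ) : ℂ) = 0 := by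
      rw [← Finset.mul_sum, sum_unitChar_eq_zero χ hχ, mul_zero]
    rw [← sub_zero (∑ x : A, _ * _), ← this, ← Finset.sum_sub_distrib]
    refine Finset.sum_congr rfl fun x _ => ?_
    push_cast
    ring
  rw [h1, h2, h3]
  refine (norm_sum_le _ _).trans ?_
  have hn1 : (1 : ℝ) ≤ (n : ℝ) := by exact_mod_cast hn
  have hterm : ∀ x ∈ (Finset.univ : Finset A),
      ‖((((S.filter fun I => IsCoprime I 𝔪 ∧ ψ I = x).card : ℝ) - κ * n : ℝ) : ℂ) *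
        ((χ x : ℂˣ) : ℂ)‖ ≤ C * (n : ℝ) ^ e := by
    intro x _
    rw [norm_mul, norm_unitChar_eq_one, mul_one, Complex.norm_real, Real.norm_eq_abs, hcount x]
    exact hC x n hn1
  refine (Finset.sum_le_sum hterm).trans ?_
  rw [Finset.sum_const, Finset.card_univ, nsmul_eq_mul, mul_assoc]

/-- For `χ ≠ 1`, the real part of `∑_𝔭 χ(ψ 𝔭) N𝔭^{-s}` is bounded above on `(1, 2]`. -/
theorem exists_re_tsum_rayChar_le [Finite A] (hRC : Stmt_RayCount) (hMS : Stmt_MultSum)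
    (h𝔪 : 𝔪 ≠ ⊥) (hψ : IsRayMap 𝔪 ψ) (χ : A →* ℂˣ) (hχ : χ ≠ 1) :
    ∃ C : ℝ, ∀ s : ℝ, 1 < s → s ≤ 2 →
      (∑' v : HeightOneSpectrum (𝓞 F),
        rayChar hψ χ v.asIdeal * ((primeTerm F s v : ℝ) : ℂ)).re ≤ C := by
  obtain ⟨B, hB⟩ := exists_partial_sum_rayChar_le hRC h𝔪 hψ χ hχ
  have hδ : (0 : ℝ) < (Module.finrank ℚ F : ℝ)⁻¹ := by
    have : 0 < Module.finrank ℚ F := Module.finrank_pos
    positivity
  exact hMS F (rayChar hψ χ) _ B hδ (norm_rayChar_le hψ χ) hB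

end Fermat.Agent.Lib.SecondIneq.H31
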