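import Fermat.Agent.Lib.SecondIneq.H31_RayChar
import Fermat.Agent.Lib.ZetaPrimes
import Fermat.Agent.Lib.ZetaPrimesDeg
import Fermat.Agent.S14.H66_T2

/-!
# Package SI-G: `Stmt_T2m`, the second inequality with modulus (analytic form)

`F ⊆ L` number fields, `ψ : Ideal (𝓞 F) → A` a ray class map mod `𝔪 ≠ 0` onto a finite abelian
group.  If `ψ 𝔭 = 1` for all primes `𝔭 ∤ 𝔪` of `F` under a prime of `L` of absolute degree one
(norm outside a finite set), then `|A| ≤ [L : F]`.
-/

namespace Fermat.Agent.Lib.SecondIneq.H31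

open NumberField Ideal IsDedekindDomain
open Fermat.Agent.Lib.ZetaPrimes Fermat.Agent.S14.H66
open scoped BigOperators

section Lower

variable (F L : Type) [Field F] [NumberField F] [Field L] [NumberField L] [Algebra F L]

/-- Transfer of the prime sums from `L` to `F`. -/
lemma tsum_le_finrank_mul_set (V : Set (HeightOneSpectrum (𝓞 F)))
    (D : Set (HeightOneSpectrum (𝓞 L)))
    (hD : ∀ w ∈ D, (absNorm w.asIdeal).Prime ∧ underSpec F L w ∈ V)
    (s : ℝ) (hsF : Summable (primeTerm F s)) (hsL : Summable (primeTerm L s)) :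
    ∑' w : D, primeTerm L s w
      ≤ (Module.finrank F L : ℝ) * ∑' v : V, primeTerm F s v := by
  classical
  have hsD : Summable (fun w : D => primeTerm L s w) := hsL.subtype D
  have hsU : Summable (fun v : V => primeTerm F s v) := hsF.subtype _
  refine hsD.tsum_le_of_sum_le fun A => ?_
  let φ : D → V := fun w => ⟨underSpec F L w, (hD w w.2).2⟩
  have h1 : ∑ w ∈ A, primeTerm L s w = ∑ w ∈ A, primeTerm F s (φ w) := by
    refine Finset.sum_congr rfl fun w _ => ?_
    exact (primeTerm_underSpec F L s w (hD w w.2).1).symm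
  rw [h1, Finset.sum_comp (fun v : V => primeTerm F s v) φ]
  have h2 : ∀ v ∈ A.image φ, ({w ∈ A | φ w = v}.card : ℕ) • primeTerm F s v
      ≤ (Module.finrank F L : ℝ) * primeTerm F s v := by
    intro v _
    rw [nsmul_eq_mul]
    refine mul_le_mul_of_nonneg_right ?_ (primeTerm_nonneg' F s v)
    have hc : ({w ∈ A | φ w = v}.map ⟨Subtype.val, Subtype.val_injective⟩).card
        ≤ Module.finrank F L := by
      refine card_fiber_le F L v.1 _ ?_
      intro w hw
      rw [Finset.mem_map] at hw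
      obtain ⟨w', hw', rfl⟩ := hw
      rw [Finset.mem_filter] at hw'
      exact congrArg Subtype.val hw'.2
    rw [Finset.card_map] at hc
    exact_mod_cast hc
  refine (Finset.sum_le_sum h2).trans ?_
  rw [← Finset.mul_sum]
  refine mul_le_mul_of_nonneg_left ?_ (Nat.cast_nonneg _)
  exact hsU.sum_le_tsum _ fun v _ => primeTerm_nonneg' F s v

/-- The primes of `L` over a prime of `F` dividing `𝔪`: a finite set. -/
lemma finite_not_isCoprime_under {𝔪 : Ideal (𝓞 F)} (h𝔪 : 𝔪 ≠ ⊥) :
    {w : HeightOneSpectrum (𝓞 L) | ¬ IsCoprime (w.asIdeal.under (𝓞 F)) 𝔪}.Finite := by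
  have hmap : Ideal.map (algebraMap (𝓞 F) (𝓞 L)) 𝔪 ≠ ⊥ := by
    rw [Ne, Ideal.map_eq_bot_iff_of_injective (RingOfIntegers.algebraMap.injective F L)]
    exact h𝔪
  refine (Ideal.finite_factors hmap).subset fun w hw => ?_
  rw [Set.mem_ofPred_eq] at hw ⊢
  rw [Ideal.dvd_iff_le, Ideal.map_le_iff_le_comap]
  by_contra hle
  apply hw
  have hmax : (w.asIdeal.under (𝓞 F)).IsMaximal := (underSpec F L w).isMaximal
  rw [Ideal.isCoprime_iff_sup_eq]
  by_contra htop
  have h := hmax.eq_of_le htop le_sup_left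
  apply hle
  have h2 : 𝔪 ≤ w.asIdeal.under (𝓞 F) := by
    rw [h]
    exact le_sup_right
  exact h2

end Lower

section Main

open Filter Topology

variable (F L : Type) [Field F] [NumberField F] [Field L] [NumberField L] [Algebra F L]

set_option linter.deprecated false in
/-- **T2m** for a fixed pair `F ⊆ L`, from the ray class counts and the bound for the prime sums
of bounded multiplicative functions. -/
theorem T2m_of (hRC : Stmt_RayCount) (hMS : Stmt_MultSum)
    (𝔪 : Ideal (𝓞 F)) (A : Type) [CommGroup A] [Finite A] (ψ : Ideal (𝓞 F) → A) (T : Finset ℕ)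
    (h𝔪 : 𝔪 ≠ ⊥) (hψ : IsRayMap 𝔪 ψ)
    (hU : ∀ Q : Ideal (𝓞 L), Q.IsPrime → (Ideal.absNorm Q).Prime → Ideal.absNorm Q ∉ T →
      IsCoprime (Q.under (𝓞 F)) 𝔪 → ψ (Q.under (𝓞 F)) = 1) :
    Nat.card A ≤ Module.finrank F L := by
  classical
  set c : HeightOneSpectrum (𝓞 F) → A :=
    fun v => if IsCoprime v.asIdeal 𝔪 then ψ v.asIdeal else 1 with hc
  set w : HeightOneSpectrum (𝓞 F) → ℝ → ℝ :=
    fun v s => if IsCoprime v.asIdeal 𝔪 then primeTerm F s v else 0 with hw
  have hw0 : ∀ v s, 0 ≤ w v s := by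
    intro v s
    simp only [hw]
    split_ifs
    · exact primeTerm_nonneg' F s v
    · exact le_rfl
  have hwle : ∀ v s, w v s ≤ primeTerm F s v := by
    intro v s
    simp only [hw]
    split_ifs
    · exact le_rfl
    · exact primeTerm_nonneg' F s v
  have hsF := summable_primeTerm F
  have hsL := summable_primeTerm L
  have hsum : ∀ s : ℝ, 1 < s → Summable (fun v => w v s) := fun s hs =>
    Summable.of_nonneg_of_le (fun v => hw0 v s) (fun v => hwle v s) (hsF s hs)
  have hup : ∃ C : ℝ, ∀ᶠ s in 𝓝[>] (1 : ℝ), ∑' v, w v s ≤ Real.log (1 / (s - 1)) + C := by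
    obtain ⟨C, hC⟩ := primeSum_le F
    refine ⟨C, ?_⟩
    filter_upwards [hC, self_mem_nhdsWithin] with s hs hs1
    exact ((hsum s hs1).tsum_le_tsum (fun v => hwle v s) (hsF s hs1)).trans hs
  have hchar : ∀ χ : A →* ℂˣ, χ ≠ 1 → ∃ C : ℝ, ∀ s : ℝ, 1 < s → s ≤ 2 →
      (∑' v, ((χ (c v) : ℂˣ) : ℂ) * ((w v s : ℝ) : ℂ)).re ≤ C := by
    intro χ hχ
    obtain ⟨C, hC⟩ := exists_re_tsum_rayChar_le hRC hMS h𝔪 hψ χ hχ
    refine ⟨C, fun s hs hs2 => ?_⟩
    have : (fun v => ((χ (c v) : ℂˣ) : ℂ) * ((w v s : ℝ) : ℂ)) =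
        fun v => rayChar hψ χ v.asIdeal * ((primeTerm F s v : ℝ) : ℂ) := by
      funext v
      rw [rayChar_apply]
      by_cases hv : IsCoprime v.asIdeal 𝔪
      · simp [hc, hw, hv, v.ne_bot]
      · simp [hc, hw, hv]
    rw [this]
    exact hC s hs hs2
  have hlow : ∃ C : ℝ, ∀ᶠ s in 𝓝[>] (1 : ℝ), Real.log (1 / (s - 1)) - C
      ≤ (Module.finrank F L : ℕ) * ∑' v : {v // c v ∈ (⊥ : Subgroup A)}, w v s := by
    obtain ⟨C1, hC1⟩ := primeSum_ge L
    obtain ⟨C2, hC2⟩ := notPrimeNorm_le L
    set B : Set (HeightOneSpectrum (𝓞 L)) :=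
      {w | absNorm w.asIdeal ∈ T} ∪ {w | ¬ IsCoprime (w.asIdeal.under (𝓞 F)) 𝔪} with hB
    set NP : Set (HeightOneSpectrum (𝓞 L)) := {w | ¬ (absNorm w.asIdeal).Prime} with hNP
    set D : Set (HeightOneSpectrum (𝓞 L)) :=
      {w | (absNorm w.asIdeal).Prime ∧ absNorm w.asIdeal ∉ T ∧
        IsCoprime (w.asIdeal.under (𝓞 F)) 𝔪} with hD
    set V : Set (HeightOneSpectrum (𝓞 F)) :=
      {v | IsCoprime v.asIdeal 𝔪 ∧ ψ v.asIdeal = 1} with hV
    have hBfin : B.Finite := (finite_absNorm_mem L T).union (finite_not_isCoprime_under F L h𝔪)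
    refine ⟨C1 + C2 + B.ncard, ?_⟩
    filter_upwards [hC1, self_mem_nhdsWithin] with s hs hs1
    have hs1' : (1 : ℝ) < s := hs1
    have hSL := hsL s hs1'
    have hSF := hsF s hs1'
    have hsplit := hSL.tsum_subtype_add_tsum_subtype_compl D
    have hcompl : ∑' w : (Dᶜ : Set _), primeTerm L s w
        ≤ ∑' w : NP, primeTerm L s w + ∑' w : B, primeTerm L s w := by
      rw [tsum_subtype (Dᶜ) (primeTerm L s), tsum_subtype NP (primeTerm L s),
        tsum_subtype B (primeTerm L s), ← (hSL.indicator NP).tsum_add (hSL.indicator B)]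
      refine (hSL.indicator _).tsum_le_tsum (fun w => ?_)
        ((hSL.indicator NP).add (hSL.indicator B))
      by_cases hw : w ∈ Dᶜ
      · rw [Set.indicator_of_mem hw]
        by_cases hw1 : w ∈ NP
        · rw [Set.indicator_of_mem hw1]
          have := Set.indicator_nonneg (s := B) (f := primeTerm L s)
            (fun w _ => primeTerm_nonneg' L s w) w
          linarith
        · have hw2 : w ∈ B := by
            by_contra hw2
            apply hw
            have h1 : absNorm w.asIdeal ∉ T := fun h => hw2 (Or.inl h)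
            have h2 : IsCoprime (w.asIdeal.under (𝓞 F)) 𝔪 := by
              by_contra h
              exact hw2 (Or.inr h)
            exact ⟨not_not.mp hw1, h1, h2⟩
          rw [Set.indicator_of_mem hw2]
          have := Set.indicator_nonneg (s := NP) (f := primeTerm L s)
            (fun w _ => primeTerm_nonneg' L s w) w
          linarith
      · rw [Set.indicator_of_notMem hw]
        exact add_nonneg
          (Set.indicator_nonneg (fun w _ => primeTerm_nonneg' L s w) w)
          (Set.indicator_nonneg (fun w _ => primeTerm_nonneg' L s w) w)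
    have hNPle : ∑' w : NP, primeTerm L s w ≤ C2 := hC2 s hs1'
    have hBle : ∑' w : B, primeTerm L s w ≤ B.ncard :=
      NumberField.Set.primeIdealZetaSum_le_card_of_finite hBfin (by linarith)
    have hDle := tsum_le_finrank_mul_set F L V D (fun w hw =>
      ⟨hw.1, hw.2.2, hU w.asIdeal w.isPrime hw.1 hw.2.1 hw.2.2⟩) s hSF hSL
    have hVle : ∑' v : V, primeTerm F s v ≤ ∑' v : {v // c v ∈ (⊥ : Subgroup A)}, w v s := by
      have e1 := tsum_subtype V (primeTerm F s)
      have e2 := tsum_subtype ({v | c v ∈ (⊥ : Subgroup A)} : Set (HeightOneSpectrum (𝓞 F)))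
        (fun v => w v s)
      have e2' : ∑' v : {v // c v ∈ (⊥ : Subgroup A)}, w v s =
          ∑' v, ({v | c v ∈ (⊥ : Subgroup A)} : Set (HeightOneSpectrum (𝓞 F))).indicator
            (fun v => w v s) v := e2
      rw [e1, e2']
      refine (hSF.indicator V).tsum_le_tsum (fun v => ?_) ((hsum s hs1').indicator _)
      by_cases hv : v ∈ V
      · have hcv : c v = 1 := by
          simp only [hc]
          rw [if_pos hv.1]
          exact hv.2
        have hv' : v ∈ ({v | c v ∈ (⊥ : Subgroup A)} : Set (HeightOneSpectrum (𝓞 F))) := by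
          rw [Set.mem_setOf_eq, hcv]
          exact Subgroup.one_mem _
        rw [Set.indicator_of_mem hv, Set.indicator_of_mem hv']
        simp only [hw]
        rw [if_pos hv.1]
      · rw [Set.indicator_of_notMem hv]
        exact Set.indicator_nonneg (fun v _ => hw0 v s) v
    have hfin0 : (0 : ℝ) ≤ (Module.finrank F L : ℝ) := Nat.cast_nonneg _
    have hfinal := mul_le_mul_of_nonneg_left hVle hfin0
    linarith
  have := index_le_of_bounds (⊥ : Subgroup A) c w hw0 hsum hup hchar (Module.finrank F L) hlow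
  rwa [Subgroup.index_bot] at this

end Main

/-- **SI-G**: `Stmt_T2m`, the second inequality with modulus (analytic form). -/
theorem stmt_T2m : Stmt_T2m := by
  intro F L _ _ _ _ _ 𝔪 A _ _ ψ T h𝔪 hψ hU
  exact T2m_of F L stmt_RayCount stmt_MultSum 𝔪 A ψ T h𝔪 hψ hU

end Fermat.Agent.Lib.SecondIneq.H31
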