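import Fermat.Agent.Lib.SecondIneq.Defs

/-!
# Package SI-P2: `Stmt_GenCount`

A nonzero principal ideal of `𝓞 F` has exactly `w_F` generators in the fundamental cone
(from Mathlib's `fundamentalCone.integerSetEquiv`).
-/

namespace Fermat.Agent.Lib.SecondIneq.H31

open NumberField Ideal NumberField.mixedEmbedding NumberField.mixedEmbedding.fundamentalCone
open scoped nonZeroDivisors

variable {F : Type*} [Field F] [NumberField F]

/-- The generators of `I` in the fundamental cone, as elements of `integerSet`. -/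
noncomputable def genToIntegerSet (I : Ideal (𝓞 F)) :
    {x : 𝓞 F // mixedEmbedding F (x : F) ∈ fundamentalCone F ∧ Ideal.span {x} = I} ≃
      {a : integerSet F // ((integerSetEquiv F a).1 : Ideal (𝓞 F)) = I} where
  toFun x := ⟨⟨mixedEmbedding F (x.1 : F), mem_integerSet.mpr ⟨x.2.1, x.1, rfl⟩⟩, by
    rw [integerSetEquiv_apply_fst, preimageOfMemIntegerSet_mixedEmbedding]
    exact x.2.2⟩
  invFun a := ⟨(preimageOfMemIntegerSet a.1 : 𝓞 F), by
    rw [mixedEmbedding_preimageOfMemIntegerSet]
    exact a.1.2.1, by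
    have := a.2
    rwa [integerSetEquiv_apply_fst] at this⟩
  left_inv x := by
    apply Subtype.ext
    simp only
    rw [preimageOfMemIntegerSet_mixedEmbedding]
  right_inv a := by
    apply Subtype.ext
    apply Subtype.ext
    simp only
    rw [mixedEmbedding_preimageOfMemIntegerSet]

/-- The fibre of the first projection. -/
noncomputable def fibreFstEquiv (I : Ideal (𝓞 F)) (hI : I ≠ ⊥) (hP : I.IsPrincipal) :
    {p : {J : (Ideal (𝓞 F))⁰ // Submodule.IsPrincipal J.val} × Units.torsion F //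
      ((p.1 : (Ideal (𝓞 F))⁰) : Ideal (𝓞 F)) = I} ≃ Units.torsion F where
  toFun p := p.1.2
  invFun t := ⟨(⟨⟨I, mem_nonZeroDivisors_of_ne_zero hI⟩, hP⟩, t), rfl⟩
  left_inv p := by
    obtain ⟨⟨⟨⟨J, hJ⟩, hJP⟩, t⟩, h⟩ := p
    simp only at h
    subst h
    rfl
  right_inv t := rfl

theorem card_gen (I : Ideal (𝓞 F)) (hI : I ≠ ⊥) (hP : I.IsPrincipal) :
    Nat.card {x : 𝓞 F // mixedEmbedding F (x : F) ∈ fundamentalCone F ∧ Ideal.span {x} = I} =
      Units.torsionOrder F := by
  rw [Units.torsionOrder]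
  refine Nat.card_congr ((genToIntegerSet I).trans ?_)
  exact (Equiv.subtypeEquiv (q := fun p => ((p.1 : (Ideal (𝓞 F))⁰) : Ideal (𝓞 F)) = I)
    (integerSetEquiv F) (fun a => Iff.rfl)).trans (fibreFstEquiv I hI hP)

theorem stmt_GenCount : Stmt_GenCount := fun _ _ _ I hI hP => card_gen I hI hP

end Fermat.Agent.Lib.SecondIneq.H31
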