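import Fermat.Agent.Lib.SecondIneq.Defs
import Mathlib.RingTheory.DedekindDomain.Factorization

/-!
# Package SI-RC, algebraic part

Elementary facts on ray class maps `ψ` (`IsRayMap 𝔪 ψ`):
* `ψ ((a))`, for `a` prime to `𝔪`, only depends on `a mod 𝔪`;
* every ideal class contains an integral ideal prime to `𝔪`;
* the norm of the mixed embedding of `a ∈ 𝓞 F` is the absolute norm of `(a)`.
-/

namespace Fermat.Agent.Lib.SecondIneq.H31

open NumberField Ideal NumberField.mixedEmbedding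
open scoped nonZeroDivisors

variable {F : Type*} [Field F] [NumberField F] {𝔪 : Ideal (𝓞 F)}
  {A : Type*} [CommGroup A] {ψ : Ideal (𝓞 F) → A}

omit [NumberField F] in
lemma isCoprime_span_singleton_of_sub_mem {a b : 𝓞 F} (hab : a - b ∈ 𝔪)
    (ha : IsCoprime (Ideal.span {a}) 𝔪) : IsCoprime (Ideal.span {b}) 𝔪 := by
  rw [Ideal.isCoprime_iff_sup_eq] at ha ⊢
  rw [eq_top_iff, ← ha]
  refine sup_le ?_ le_sup_right
  rw [Ideal.span_singleton_le_iff_mem]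
  have h : a = b + (a - b) := by ring
  rw [h]
  exact Ideal.add_mem _ (Ideal.mem_sup_left (Ideal.mem_span_singleton_self b))
    (Ideal.mem_sup_right hab)

lemma exists_ne_zero_mul_sub_one_mem {a : 𝓞 F} (ha : IsCoprime (Ideal.span {a}) 𝔪) :
    ∃ c : 𝓞 F, c ≠ 0 ∧ c * a - 1 ∈ 𝔪 := by
  obtain ⟨i, hi, j, hj, hij⟩ := Ideal.isCoprime_iff_exists.mp ha
  obtain ⟨c, rfl⟩ := Ideal.mem_span_singleton'.mp hi
  by_cases hc : c = 0
  · subst hc
    refine ⟨1, one_ne_zero, ?_⟩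
    have h1 : (1 : 𝓞 F) ∈ 𝔪 := by
      have : j = 1 := by simpa using hij
      rwa [this] at hj
    rw [(Ideal.eq_top_iff_one _).mpr h1]
    trivial
  · refine ⟨c, hc, ?_⟩
    have : c * a - 1 = -j := by rw [← hij]; ring
    rw [this]
    exact neg_mem hj

omit [NumberField F] in
lemma isCoprime_span_singleton_of_mul_sub_one_mem {a c : 𝓞 F} (hc : c * a - 1 ∈ 𝔪) :
    IsCoprime (Ideal.span {c}) 𝔪 := by
  rw [Ideal.isCoprime_iff_exists]
  exact ⟨c * a, Ideal.mem_span_singleton'.mpr ⟨a, by ring⟩, -(c * a - 1), neg_mem hc, by ring⟩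

/-- `ψ ((a))` only depends on `a mod 𝔪`. -/
lemma psi_span_eq_of_sub_mem (hψ : IsRayMap 𝔪 ψ) {a b : 𝓞 F} (ha0 : a ≠ 0) (hb0 : b ≠ 0)
    (hab : a - b ∈ 𝔪) (ha : IsCoprime (Ideal.span {a}) 𝔪) :
    ψ (Ideal.span {b}) = ψ (Ideal.span {a}) := by
  have hb := isCoprime_span_singleton_of_sub_mem hab ha
  obtain ⟨c, hc0, hc⟩ := exists_ne_zero_mul_sub_one_mem ha
  have hcb : c * b - 1 ∈ 𝔪 := by
    have : c * b - 1 = (c * a - 1) - c * (a - b) := by ring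
    rw [this]
    exact sub_mem hc (Ideal.mul_mem_left _ _ hab)
  have hcc : IsCoprime (Ideal.span {c}) 𝔪 := isCoprime_span_singleton_of_mul_sub_one_mem hc
  have hne : ∀ z : 𝓞 F, z ≠ 0 → Ideal.span {z} ≠ ⊥ := fun z hz => by
    simpa [Ideal.span_singleton_eq_bot] using hz
  have h1 := hψ.map_ray (c * a) (mul_ne_zero hc0 ha0) hc
  have h2 := hψ.map_ray (c * b) (mul_ne_zero hc0 hb0) hcb
  rw [← Ideal.span_singleton_mul_span_singleton,
    hψ.map_mul _ _ (hne c hc0) (hne a ha0) hcc ha] at h1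
  rw [← Ideal.span_singleton_mul_span_singleton,
    hψ.map_mul _ _ (hne c hc0) (hne b hb0) hcc hb] at h2
  exact mul_left_cancel (h2.trans h1.symm)

/-- The norm of the mixed embedding of an integer is the absolute norm of the ideal it
generates. -/
lemma norm_mixedEmbedding_eq_absNorm (x : 𝓞 F) :
    mixedEmbedding.norm (mixedEmbedding F (x : F)) = (absNorm (Ideal.span {x}) : ℝ) := by
  rw [mixedEmbedding.norm_eq_norm, Ideal.absNorm_span_singleton, Nat.cast_natAbs,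
    ← Algebra.coe_norm_int, Int.cast_abs, Rat.cast_abs, Rat.cast_intCast]

/-- Every ideal class contains an integral ideal prime to `𝔪`. -/
lemma exists_isCoprime_mk0_eq (h𝔪 : 𝔪 ≠ ⊥) (d : ClassGroup (𝓞 F)) :
    ∃ J : (Ideal (𝓞 F))⁰, IsCoprime (J : Ideal (𝓞 F)) 𝔪 ∧ ClassGroup.mk0 J = d := by
  by_cases htop : 𝔪 = ⊤
  · obtain ⟨J, hJ⟩ := ClassGroup.mk0_surjective d
    exact ⟨J, by rw [htop, Ideal.isCoprime_iff_sup_eq]; exact sup_top_eq _, hJ⟩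
  obtain ⟨I₀, hI₀⟩ := ClassGroup.mk0_surjective d⁻¹
  have hI₀0 : (I₀ : Ideal (𝓞 F)) ≠ 0 := nonZeroDivisors.coe_ne_zero I₀
  have hle : (I₀ : Ideal (𝓞 F)) * 𝔪 ≤ I₀ := Ideal.mul_le_left
  obtain ⟨a, ha⟩ := IsDedekindDomain.exists_sup_span_eq hle (mul_ne_zero hI₀0 h𝔪)
  have haI : a ∈ (I₀ : Ideal (𝓞 F)) := by
    rw [← ha]
    exact Ideal.mem_sup_right (Ideal.mem_span_singleton_self a)
  obtain ⟨K, hK⟩ := Ideal.dvd_span_singleton.mpr haI
  have hKm : 𝔪 ⊔ K = ⊤ := by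
    have h1 : (I₀ : Ideal (𝓞 F)) * (𝔪 ⊔ K) = (I₀ : Ideal (𝓞 F)) * ⊤ := by
      rw [Ideal.mul_sup, ← hK, ha, Ideal.mul_top]
    exact mul_left_cancel₀ hI₀0 h1
  have ha0 : a ≠ 0 := by
    rintro rfl
    apply htop
    have h1 : (I₀ : Ideal (𝓞 F)) * 𝔪 = (I₀ : Ideal (𝓞 F)) * ⊤ := by
      rw [Ideal.mul_top]
      simpa using ha
    exact mul_left_cancel₀ hI₀0 h1
  have hK0 : K ≠ ⊥ := by
    rintro rfl
    apply ha0
    have : Ideal.span {a} = ⊥ := by rw [hK]; simp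
    simpa [Ideal.span_singleton_eq_bot] using this
  refine ⟨⟨K, mem_nonZeroDivisors_of_ne_zero hK0⟩, ?_, ?_⟩
  · rw [Ideal.isCoprime_iff_sup_eq, sup_comm]
    exact hKm
  · have hprod : ClassGroup.mk0 (I₀ * ⟨K, mem_nonZeroDivisors_of_ne_zero hK0⟩) = 1 := by
      have hmem : (I₀ : Ideal (𝓞 F)) * K ∈ (Ideal (𝓞 F))⁰ :=
        mem_nonZeroDivisors_of_ne_zero (mul_ne_zero hI₀0 hK0)
      have : (I₀ * ⟨K, mem_nonZeroDivisors_of_ne_zero hK0⟩ : (Ideal (𝓞 F))⁰) =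
          ⟨(I₀ : Ideal (𝓞 F)) * K, hmem⟩ := rfl
      rw [this, ClassGroup.mk0_eq_one_iff, ← hK]
      exact ⟨⟨a, rfl⟩⟩
    rw [map_mul, hI₀] at hprod
    exact (inv_mul_eq_one.mp hprod).symm ▸ rfl

end Fermat.Agent.Lib.SecondIneq.H31
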