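import Fermat.Agent.Lib.SecondIneq.H31_RayAlg

/-!
# Package SI-RC, combinatorial part

For a ray class map `ψ` mod `𝔪`, representatives `J d` (prime to `𝔪`) of the ideal classes `d`,
an ideal `𝔟` prime to `𝔪` with `ψ 𝔟 = x⁻¹`:

`w_F · #{I : ψ I = x, N I ≤ t} = ∑_{(d, ρ)} #{α ∈ 𝔟 J_d ∩ cone : α ≡ ρ mod 𝔪, N α ≤ t N(𝔟 J_d)}`,

the sum over the pairs `(d, ρ)`, `d` an ideal class, `ρ` a residue class mod `𝔪` of elements prime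
to `𝔪` with `ψ ((a)) = ψ (J d)`.
-/

namespace Fermat.Agent.Lib.SecondIneq.H31

open NumberField Ideal NumberField.mixedEmbedding
open scoped nonZeroDivisors

variable {F : Type*} [Field F] [NumberField F] (𝔪 : Ideal (𝓞 F))
  {A : Type*} [CommGroup A] (ψ : Ideal (𝓞 F) → A)

/-- The residue classes mod `𝔪` of the nonzero `a` prime to `𝔪` with `ψ ((a)) = y`. -/
def resSet (y : A) : Set (𝓞 F ⧸ 𝔪) :=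
  {ρ | ∃ a : 𝓞 F, a ≠ 0 ∧ Ideal.Quotient.mk 𝔪 a = ρ ∧ IsCoprime (Ideal.span {a}) 𝔪 ∧
    ψ (Ideal.span {a}) = y}

/-- The inverse of the class of `I 𝔟`. -/
noncomputable def clOf (𝔟 I : Ideal (𝓞 F)) : ClassGroup (𝓞 F) := by
  classical
  exact if h : I * 𝔟 ≠ ⊥ then
    (ClassGroup.mk0 ⟨I * 𝔟, mem_nonZeroDivisors_of_ne_zero h⟩)⁻¹ else 1

lemma isPrincipal_mul_iff {𝔟 I K : Ideal (𝓞 F)} (hI : I ≠ ⊥) (h𝔟 : 𝔟 ≠ ⊥) (hK : K ≠ ⊥)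
    (d : ClassGroup (𝓞 F)) (hd : ClassGroup.mk0 ⟨K, mem_nonZeroDivisors_of_ne_zero hK⟩ = d) :
    (I * 𝔟 * K).IsPrincipal ↔ d = clOf 𝔟 I := by
  have hI𝔟 : I * 𝔟 ≠ ⊥ := mul_ne_zero hI h𝔟
  have hall : I * 𝔟 * K ≠ ⊥ := mul_ne_zero hI𝔟 hK
  rw [← ClassGroup.mk0_eq_one_iff (mem_nonZeroDivisors_of_ne_zero hall)]
  have h1 : (⟨I * 𝔟 * K, mem_nonZeroDivisors_of_ne_zero hall⟩ : (Ideal (𝓞 F))⁰) =
      ⟨I * 𝔟, mem_nonZeroDivisors_of_ne_zero hI𝔟⟩ * ⟨K, mem_nonZeroDivisors_of_ne_zero hK⟩ := rfl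
  rw [h1, map_mul, hd, clOf, dif_pos hI𝔟]
  exact ⟨fun h => (eq_inv_of_mul_eq_one_right h), fun h => by rw [h]; exact mul_inv_cancel _⟩

/-- A subtype of a product as a sigma type. -/
def subtypeProdEquivSigmaH31 {α β : Type*} (q : α → Prop) (r : α → β → Prop) :
    {p : α × β // q p.1 ∧ r p.1 p.2} ≃ Σ a : {a // q a}, {b // r a.1 b} where
  toFun p := ⟨⟨p.1.1, p.2.1⟩, ⟨p.1.2, p.2.2⟩⟩
  invFun s := ⟨(s.1.1, s.2.1), ⟨s.1.2, s.2.2⟩⟩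
  left_inv _ := rfl
  right_inv _ := rfl

variable {𝔪 ψ}

section

variable (J : ClassGroup (𝓞 F) → Ideal (𝓞 F)) (𝔟 : Ideal (𝓞 F)) (x : A) (t : ℝ)

/-- The conditions on the ideal. -/
def fibP (𝔪 : Ideal (𝓞 F)) (ψ : Ideal (𝓞 F) → A) (x : A) (t : ℝ) (I : Ideal (𝓞 F)) : Prop :=
  I ≠ ⊥ ∧ IsCoprime I 𝔪 ∧ ψ I = x ∧ (absNorm I : ℝ) ≤ t

/-- The conditions on the generator. -/
def genP (J : ClassGroup (𝓞 F) → Ideal (𝓞 F)) (𝔟 : Ideal (𝓞 F)) (I : Ideal (𝓞 F)) (α : 𝓞 F) :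
    Prop :=
  mixedEmbedding F (α : F) ∈ fundamentalCone F ∧ Ideal.span {α} = I * 𝔟 * J (clOf 𝔟 I)

/-- The conditions on the index `(d, ρ)`. -/
def idxP (𝔪 : Ideal (𝓞 F)) (ψ : Ideal (𝓞 F) → A) (J : ClassGroup (𝓞 F) → Ideal (𝓞 F))
    (i : ClassGroup (𝓞 F) × (𝓞 F ⧸ 𝔪)) : Prop :=
  i.2 ∈ resSet 𝔪 ψ (ψ (J i.1))

/-- The conditions on the element of the coset. -/
def cosP (𝔪 : Ideal (𝓞 F)) (J : ClassGroup (𝓞 F) → Ideal (𝓞 F)) (𝔟 : Ideal (𝓞 F)) (t : ℝ)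
    (i : ClassGroup (𝓞 F) × (𝓞 F ⧸ 𝔪)) (α : 𝓞 F) : Prop :=
  mixedEmbedding F (α : F) ∈ fundamentalCone F ∧ α ∈ 𝔟 * J i.1 ∧ α - Quotient.out i.2 ∈ 𝔪 ∧
    mixedEmbedding.norm (mixedEmbedding F (α : F)) ≤ t * (absNorm (𝔟 * J i.1) : ℝ)

lemma ne_zero_of_mem_cone {α : 𝓞 F} (h : mixedEmbedding F (α : F) ∈ fundamentalCone F) :
    α ≠ 0 := by
  rintro rfl
  have := fundamentalCone.norm_pos_of_mem h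
  simp at this

variable {J 𝔟 x t}

lemma psi_mul_mul (hψ : IsRayMap 𝔪 ψ) {I K : Ideal (𝓞 F)} (hI0 : I ≠ ⊥) (hIc : IsCoprime I 𝔪)
    (h𝔟0 : 𝔟 ≠ ⊥) (h𝔟c : IsCoprime 𝔟 𝔪) (hK0 : K ≠ ⊥) (hKc : IsCoprime K 𝔪) :
    ψ (I * 𝔟 * K) = ψ I * ψ 𝔟 * ψ K := by
  rw [hψ.map_mul _ _ (mul_ne_zero hI0 h𝔟0) hK0 (hIc.mul_left h𝔟c) hKc,
    hψ.map_mul _ _ hI0 h𝔟0 hIc h𝔟c]

lemma fwd_mem (hψ : IsRayMap 𝔪 ψ) (hJ0 : ∀ d, J d ≠ ⊥) (hJc : ∀ d, IsCoprime (J d) 𝔪)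
    (h𝔟0 : 𝔟 ≠ ⊥) (h𝔟c : IsCoprime 𝔟 𝔪) (h𝔟ψ : ψ 𝔟 = x⁻¹)
    {I : Ideal (𝓞 F)} {α : 𝓞 F} (hI : fibP 𝔪 ψ x t I) (hα : genP J 𝔟 I α) :
    idxP 𝔪 ψ J (clOf 𝔟 I, Ideal.Quotient.mk 𝔪 α) ∧
      cosP 𝔪 J 𝔟 t (clOf 𝔟 I, Ideal.Quotient.mk 𝔪 α) α := by
  obtain ⟨hI0, hIc, hIψ, hIt⟩ := hI
  obtain ⟨hcone, hspan⟩ := hα
  set d := clOf 𝔟 I with hd
  refine ⟨⟨α, ne_zero_of_mem_cone hcone, rfl, ?_, ?_⟩, hcone, ?_, ?_, ?_⟩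
  · rw [hspan]
    exact (hIc.mul_left h𝔟c).mul_left (hJc d)
  · rw [hspan, psi_mul_mul hψ hI0 hIc h𝔟0 h𝔟c (hJ0 d) (hJc d), hIψ, h𝔟ψ]
    simp
  · have : Ideal.span {α} ≤ 𝔟 * J d := by
      rw [hspan, mul_assoc]
      exact Ideal.mul_le_right
    exact this (Ideal.mem_span_singleton_self α)
  · exact (Ideal.Quotient.eq (I := 𝔪)).mp (Ideal.Quotient.mk_out (Ideal.Quotient.mk 𝔪 α)).symm
  · rw [norm_mixedEmbedding_eq_absNorm, hspan, mul_assoc, map_mul, Nat.cast_mul]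
    exact mul_le_mul_of_nonneg_right hIt (Nat.cast_nonneg _)

lemma bwd_mem (hψ : IsRayMap 𝔪 ψ) (hJ0 : ∀ d, J d ≠ ⊥) (hJc : ∀ d, IsCoprime (J d) 𝔪)
    (hJcl : ∀ d, ClassGroup.mk0 ⟨J d, mem_nonZeroDivisors_of_ne_zero (hJ0 d)⟩ = d)
    (h𝔟0 : 𝔟 ≠ ⊥) (h𝔟c : IsCoprime 𝔟 𝔪) (h𝔟ψ : ψ 𝔟 = x⁻¹)
    {i : ClassGroup (𝓞 F) × (𝓞 F ⧸ 𝔪)} {α : 𝓞 F} (hi : idxP 𝔪 ψ J i) (hα : cosP 𝔪 J 𝔟 t i α) :
    ∃ I : Ideal (𝓞 F), fibP 𝔪 ψ x t I ∧ genP J 𝔟 I α ∧ clOf 𝔟 I = i.1 ∧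
      Ideal.Quotient.mk 𝔪 α = i.2 := by
  obtain ⟨d, ρ⟩ := i
  obtain ⟨a, ha0, haρ, hac, haψ⟩ := hi
  obtain ⟨hcone, hmem, hres, hnorm⟩ := hα
  simp only at haρ haψ hmem hres hnorm
  have hα0 : α ≠ 0 := ne_zero_of_mem_cone hcone
  have hαρ : Ideal.Quotient.mk 𝔪 α = ρ := by
    rw [← Ideal.Quotient.mk_out ρ]
    exact (Ideal.Quotient.eq (I := 𝔪)).mpr hres
  have haα : a - α ∈ 𝔪 := by
    rw [← Ideal.Quotient.eq (I := 𝔪), haρ, hαρ]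
  have hαc : IsCoprime (Ideal.span {α}) 𝔪 := isCoprime_span_singleton_of_sub_mem haα hac
  have hαψ : ψ (Ideal.span {α}) = ψ (J d) := by
    rw [psi_span_eq_of_sub_mem hψ ha0 hα0 haα hac, haψ]
  obtain ⟨I, hI⟩ := Ideal.dvd_span_singleton.mpr hmem
  have hspan : Ideal.span {α} = I * 𝔟 * J d := by
    rw [hI, mul_comm, mul_assoc]
  have hI0 : I ≠ ⊥ := by
    rintro rfl
    apply hα0
    have : Ideal.span {α} = ⊥ := by rw [hI]; simp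
    simpa [Ideal.span_singleton_eq_bot] using this
  have hIc : IsCoprime I 𝔪 := by
    rw [hI] at hαc
    exact hαc.of_mul_left_right
  have hcl : d = clOf 𝔟 I := by
    rw [← isPrincipal_mul_iff hI0 h𝔟0 (hJ0 d) d (hJcl d), ← hspan]
    exact ⟨⟨α, rfl⟩⟩
  refine ⟨I, ⟨hI0, hIc, ?_, ?_⟩, ⟨hcone, ?_⟩, hcl.symm, hαρ⟩
  · have h1 := hαψ
    rw [hspan, psi_mul_mul hψ hI0 hIc h𝔟0 h𝔟c (hJ0 d) (hJc d), h𝔟ψ] at h1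
    have h2 : ψ I * x⁻¹ = 1 := by
      have := mul_right_cancel (b := ψ (J d)) (a := ψ I * x⁻¹) (c := 1) (by rw [h1, one_mul])
      exact this
    exact mul_inv_eq_one.mp h2
  · rw [norm_mixedEmbedding_eq_absNorm, hspan, mul_assoc, map_mul, Nat.cast_mul] at hnorm
    have hpos : (0 : ℝ) < (absNorm (𝔟 * J d) : ℝ) := by
      have : absNorm (𝔟 * J d) ≠ 0 := by
        rw [Ne, Ideal.absNorm_eq_zero_iff]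
        exact mul_ne_zero h𝔟0 (hJ0 d)
      exact_mod_cast Nat.pos_of_ne_zero this
    exact le_of_mul_le_mul_right hnorm hpos
  · rw [← hcl]
    exact hspan

end

end Fermat.Agent.Lib.SecondIneq.H31
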