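import Fermat.Agent.Lib.SecondIneq.H31_RayBij
import Fermat.Agent.Lib.SecondIneq.H31_GenCount

/-!
# Package SI-RC, the cardinality identity

`#{I : ψ I = x, N I ≤ t} · w_F = ∑_{(d, ρ)} #{α ∈ 𝔟 J_d ∩ cone : α ≡ ρ mod 𝔪, N α ≤ t N(𝔟 J_d)}`.
-/

namespace Fermat.Agent.Lib.SecondIneq.H31

open NumberField Ideal NumberField.mixedEmbedding
open scoped nonZeroDivisors

variable {F : Type*} [Field F] [NumberField F] {𝔪 : Ideal (𝓞 F)}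
  {A : Type*} [CommGroup A] {ψ : Ideal (𝓞 F) → A}
  {J : ClassGroup (𝓞 F) → Ideal (𝓞 F)} {𝔟 : Ideal (𝓞 F)} {x : A}

omit [CommGroup A] in
lemma finite_fibP (𝔪 : Ideal (𝓞 F)) (ψ : Ideal (𝓞 F) → A) (x : A) (t : ℝ) :
    Finite {I : Ideal (𝓞 F) // fibP 𝔪 ψ x t I} := by
  have hsub : {I : Ideal (𝓞 F) | fibP 𝔪 ψ x t I} ⊆ {I : Ideal (𝓞 F) | absNorm I ≤ ⌊t⌋₊} := by
    intro I hI
    have h4 : (absNorm I : ℝ) ≤ t := hI.2.2.2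
    exact Nat.le_floor h4
  have h : {I : Ideal (𝓞 F) | fibP 𝔪 ψ x t I}.Finite :=
    (Ideal.finite_setOfPred_absNorm_le (S := 𝓞 F) ⌊t⌋₊).subset hsub
  exact h.to_subtype

theorem card_fib_mul_torsion [Fintype {i // idxP 𝔪 ψ J i}]
    (hψ : IsRayMap 𝔪 ψ) (hJ0 : ∀ d, J d ≠ ⊥) (hJc : ∀ d, IsCoprime (J d) 𝔪)
    (hJcl : ∀ d, ClassGroup.mk0 ⟨J d, mem_nonZeroDivisors_of_ne_zero (hJ0 d)⟩ = d)
    (h𝔟0 : 𝔟 ≠ ⊥) (h𝔟c : IsCoprime 𝔟 𝔪) (h𝔟ψ : ψ 𝔟 = x⁻¹) (t : ℝ) :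
    Nat.card {I : Ideal (𝓞 F) // fibP 𝔪 ψ x t I} * Units.torsionOrder F =
      ∑ i : {i // idxP 𝔪 ψ J i}, Nat.card {α : 𝓞 F // cosP 𝔪 J 𝔟 t i.1 α} := by
  classical
  haveI hfin : Finite {I : Ideal (𝓞 F) // fibP 𝔪 ψ x t I} := finite_fibP 𝔪 ψ x t
  letI : Fintype {I : Ideal (𝓞 F) // fibP 𝔪 ψ x t I} := Fintype.ofFinite _
  have hgen : ∀ I : {I : Ideal (𝓞 F) // fibP 𝔪 ψ x t I},
      Nat.card {α : 𝓞 F // genP J 𝔟 I.1 α} = Units.torsionOrder F := by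
    intro I
    have hI0 : I.1 ≠ ⊥ := I.2.1
    have hne : I.1 * 𝔟 * J (clOf 𝔟 I.1) ≠ ⊥ := mul_ne_zero (mul_ne_zero hI0 h𝔟0) (hJ0 _)
    have hpr : (I.1 * 𝔟 * J (clOf 𝔟 I.1)).IsPrincipal :=
      (isPrincipal_mul_iff hI0 h𝔟0 (hJ0 _) _ (hJcl _)).mpr rfl
    exact card_gen _ hne hpr
  haveI : ∀ I : {I : Ideal (𝓞 F) // fibP 𝔪 ψ x t I}, Finite {α : 𝓞 F // genP J 𝔟 I.1 α} :=
    fun I => Nat.finite_of_card_ne_zero (by rw [hgen]; exact Units.torsionOrder_ne_zero F)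
  have hZ : Nat.card {p : Ideal (𝓞 F) × 𝓞 F // fibP 𝔪 ψ x t p.1 ∧ genP J 𝔟 p.1 p.2} =
      Nat.card {I : Ideal (𝓞 F) // fibP 𝔪 ψ x t I} * Units.torsionOrder F := by
    rw [Nat.card_congr (subtypeProdEquivSigmaH31 _ _), Nat.card_sigma]
    simp only [hgen, Finset.sum_const, Finset.card_univ, smul_eq_mul, Nat.card_eq_fintype_card]
  haveI hZfin : Finite {p : Ideal (𝓞 F) × 𝓞 F // fibP 𝔪 ψ x t p.1 ∧ genP J 𝔟 p.1 p.2} :=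
    Finite.of_equiv _ (subtypeProdEquivSigmaH31 _ _).symm
  let f : {p : Ideal (𝓞 F) × 𝓞 F // fibP 𝔪 ψ x t p.1 ∧ genP J 𝔟 p.1 p.2} →
      {q : (ClassGroup (𝓞 F) × (𝓞 F ⧸ 𝔪)) × 𝓞 F // idxP 𝔪 ψ J q.1 ∧ cosP 𝔪 J 𝔟 t q.1 q.2} :=
    fun p => ⟨((clOf 𝔟 p.1.1, Ideal.Quotient.mk 𝔪 p.1.2), p.1.2),
      fwd_mem hψ hJ0 hJc h𝔟0 h𝔟c h𝔟ψ p.2.1 p.2.2⟩
  have hf : Function.Bijective f := by
    constructor
    · rintro ⟨⟨I, α⟩, hI, hα⟩ ⟨⟨I', α'⟩, hI', hα'⟩ h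
      have h1 : clOf 𝔟 I = clOf 𝔟 I' := congrArg (fun q => q.1.1.1) h
      have h2 : α = α' := congrArg (fun q => q.1.2) h
      subst h2
      have h3 : I * (𝔟 * J (clOf 𝔟 I)) = I' * (𝔟 * J (clOf 𝔟 I)) := by
        rw [← mul_assoc, ← mul_assoc, ← hα.2]
        have := hα'.2
        rw [← h1] at this
        exact this
      have h4 : I = I' := mul_right_cancel₀ (mul_ne_zero h𝔟0 (hJ0 _)) h3
      subst h4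
      rfl
    · rintro ⟨⟨i, α⟩, hi, hα⟩
      obtain ⟨I, hI, hg, hcl, hρ⟩ := bwd_mem hψ hJ0 hJc hJcl h𝔟0 h𝔟c h𝔟ψ hi hα
      refine ⟨⟨(I, α), hI, hg⟩, ?_⟩
      apply Subtype.ext
      simp only [f]
      rw [hcl, hρ]
  have hcard := Nat.card_congr (Equiv.ofBijective f hf)
  haveI hZ'fin : Finite {q : (ClassGroup (𝓞 F) × (𝓞 F ⧸ 𝔪)) × 𝓞 F //
      idxP 𝔪 ψ J q.1 ∧ cosP 𝔪 J 𝔟 t q.1 q.2} := Finite.of_equiv _ (Equiv.ofBijective f hf)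
  haveI hSfin : Finite (Σ i : {i // idxP 𝔪 ψ J i}, {α : 𝓞 F // cosP 𝔪 J 𝔟 t i.1 α}) :=
    Finite.of_equiv _ (subtypeProdEquivSigmaH31 _ _)
  haveI : ∀ i : {i // idxP 𝔪 ψ J i}, Finite {α : 𝓞 F // cosP 𝔪 J 𝔟 t i.1 α} := fun i =>
    Finite.of_injective
      (fun a : {α : 𝓞 F // cosP 𝔪 J 𝔟 t i.1 α} =>
        (⟨i, a⟩ : Σ i : {i // idxP 𝔪 ψ J i}, {α : 𝓞 F // cosP 𝔪 J 𝔟 t i.1 α}))
      (fun a b h => by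
        have := Sigma.mk.inj h
        exact eq_of_heq this.2)
  rw [← hZ, hcard, Nat.card_congr (subtypeProdEquivSigmaH31 _ _), Nat.card_sigma]

end Fermat.Agent.Lib.SecondIneq.H31
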