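import Fermat.Agent.S14.H98_LatticeCount

/-!
# Package SI-P1, part 1 (helper43): lattice point counting for a TRANSLATE of a lattice

Translated versions of helper98's `GridBoundIn.exists_cells`, `abs_card_smul_sub_le` and
`exists_abs_card_le_sub_le` (S14/H98_LatticeCount.lean): the error term is the same.
-/

set_option autoImplicit false

namespace Fermat.Agent.Lib.SecondIneq.H43

open MeasureTheory Set Fermat.Agent.S14.H98

section Cells

variable {ι : Type*} [Fintype ι]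

open Pointwise in
open Classical in
/-- The number of unit cells meeting a translate of `c • T` is `O(c ^ d)`. -/
lemma exists_cells_vadd {U T : Set (ι → ℝ)} {d : ℕ} {C : ℝ}
    (h : GridBoundIn U T d C) {c : ℝ} (hc : 1 ≤ c) (a : ι → ℝ) :
    ∃ B : Finset (ι → ℤ), (B.card : ℝ) ≤ 3 ^ Fintype.card ι * C * (2 * c) ^ d ∧
      ∀ ν : ι → ℤ, (cell ν ∩ (a +ᵥ c • T)).Nonempty → ν ∈ B := by
  have hc0 : 0 < c := zero_lt_one.trans_le hc
  set m : ℕ := ⌈c⌉₊ with hm
  have hmpos : 0 < m := Nat.ceil_pos.2 hc0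
  have hcm : c ≤ m := Nat.le_ceil c
  have hm2 : (m : ℝ) ≤ 2 * c := by
    have := (Nat.ceil_lt_add_one hc0.le).le
    linarith
  obtain ⟨G, -, hG, hcov⟩ := h m hmpos
  refine ⟨G.biUnion fun y => Fintype.piFinset fun i =>
    Finset.Icc (⌊a i + c * y i⌋ - 1) (⌊a i + c * y i⌋ + 1), ?_, ?_⟩
  · have h3 : ∀ y ∈ G, (Fintype.piFinset fun i : ι =>
        Finset.Icc (⌊a i + c * y i⌋ - 1) (⌊a i + c * y i⌋ + 1)).card ≤ 3 ^ Fintype.card ι := by
      intro y _
      rw [Fintype.card_piFinset]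
      have : ∀ i : ι, (Finset.Icc (⌊a i + c * y i⌋ - 1) (⌊a i + c * y i⌋ + 1)).card = 3 := by
        intro i
        rw [Int.card_Icc]
        have : ⌊a i + c * y i⌋ + 1 + 1 - (⌊a i + c * y i⌋ - 1) = 3 := by ring
        rw [this]; rfl
      simp [this]
    have hcard := (Finset.card_biUnion_le (s := G) (t := fun y => Fintype.piFinset fun i : ι =>
      Finset.Icc (⌊a i + c * y i⌋ - 1) (⌊a i + c * y i⌋ + 1))).trans (Finset.sum_le_sum h3)
    rw [Finset.sum_const, smul_eq_mul] at hcard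
    have hC0 := h.const_nonneg
    calc ((G.biUnion fun y => Fintype.piFinset fun i =>
          Finset.Icc (⌊a i + c * y i⌋ - 1) (⌊a i + c * y i⌋ + 1)).card : ℝ)
        ≤ ((G.card * 3 ^ Fintype.card ι : ℕ) : ℝ) := by exact_mod_cast hcard
      _ = 3 ^ Fintype.card ι * (G.card : ℝ) := by push_cast; ring
      _ ≤ 3 ^ Fintype.card ι * (C * (m : ℝ) ^ d) := by gcongr
      _ ≤ 3 ^ Fintype.card ι * (C * (2 * c) ^ d) := by gcongr
      _ = 3 ^ Fintype.card ι * C * (2 * c) ^ d := by ring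
  · rintro ν ⟨x, hxν, hxT⟩
    obtain ⟨x', hx', rfl⟩ := hxT
    obtain ⟨t, ht, rfl⟩ := hx'
    obtain ⟨y, hy, hty⟩ := hcov t ht
    refine Finset.mem_biUnion.2 ⟨y, hy, ?_⟩
    rw [Fintype.mem_piFinset]
    intro i
    have h1 : |t i - y i| ≤ 1 / (m : ℝ) := by
      have := dist_le_pi_dist t y i
      rw [Real.dist_eq] at this
      exact this.trans hty
    have h2 : c * |t i - y i| ≤ 1 := by
      have hmpos' : (0 : ℝ) < m := by exact_mod_cast hmpos
      calc c * |t i - y i| ≤ m * (1 / (m : ℝ)) := by gcongr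
        _ = 1 := by field_simp
    have h3 : |c * t i - c * y i| ≤ 1 := by
      rwa [← mul_sub, abs_mul, abs_of_pos hc0]
    rw [abs_le] at h3
    have hν : ν i = ⌊a i + c * t i⌋ := by
      rw [← hxν i]; rfl
    rw [Finset.mem_Icc, hν]
    constructor
    · rw [← Int.floor_sub_one]
      exact Int.floor_le_floor (by linarith)
    · rw [← Int.floor_add_one]
      exact Int.floor_le_floor (by linarith)

open Pointwise in
/-- **Lattice point counting with error term**, for a translate of the standard lattice. -/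
theorem abs_card_vadd_smul_sub_le {s U : Set (ι → ℝ)} (hs : Bornology.IsBounded s)
    (hsm : MeasurableSet s) {d : ℕ} {C : ℝ} (hC : GridBoundIn U (frontier s) d C)
    {c : ℝ} (hc : 1 ≤ c) (a : ι → ℝ) :
    |(Nat.card {ν : ι → ℤ // (fun i => (ν i : ℝ)) ∈ a +ᵥ c • s} : ℝ)
      - c ^ Fintype.card ι * volume.real s| ≤ 3 ^ Fintype.card ι * C * (2 * c) ^ d := by
  have hc0 : 0 < c := zero_lt_one.trans_le hc
  obtain ⟨B, hBcard, hB⟩ := exists_cells_vadd hC hc a
  have hfr : frontier (a +ᵥ c • s) = a +ᵥ c • frontier s := by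
    have h1 := (Homeomorph.addLeft a).image_frontier (c • s)
    have h2 : ∀ t : Set (ι → ℝ), (Homeomorph.addLeft a) '' t = a +ᵥ t := fun t => by
      ext x
      simp only [Set.mem_image, Homeomorph.coe_addLeft, Set.mem_vadd_set, vadd_eq_add]
    rw [h2, h2, frontier_smul_set hc0.ne'] at h1
    exact h1.symm
  have hbdd : Bornology.IsBounded (a +ᵥ c • s) := (hs.smul₀ c).vadd a
  have hmeas : MeasurableSet (a +ᵥ c • s) := (hsm.const_smul₀ c).const_vadd a
  have key := abs_card_sub_volume_le hbdd hmeas B (by rw [hfr]; exact hB)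
  have hvol : volume.real (a +ᵥ c • s) = c ^ Fintype.card ι * volume.real s := by
    rw [measureReal_def, measure_vadd, Measure.addHaar_smul_of_nonneg volume hc0.le,
      ENNReal.toReal_mul, ENNReal.toReal_ofReal (pow_nonneg hc0.le _),
      Module.finrank_fintype_fun_eq_card, measureReal_def]
  rw [hvol] at key
  exact key.trans hBcard

end Cells

section GeneralLattice

open Pointwise Module Bornology

variable {E : Type*} [NormedAddCommGroup E] [NormedSpace ℝ E] [FiniteDimensional ℝ E]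
variable {L : Submodule ℤ E} [DiscreteTopology L] [IsZLattice ℝ L]
variable {ι : Type*} [Fintype ι] (b : Basis ι ℤ L)

omit [NormedSpace ℝ E] [FiniteDimensional ℝ E] [DiscreteTopology L] [IsZLattice ℝ L] in
/-- Points of a translate of `L` in `A` correspond to points of `L` in the translate of `A`. -/
lemma card_inter_vadd_eq (A : Set E) (x₀ : E) :
    Nat.card (A ∩ (x₀ +ᵥ (L : Set E)) : Set E) = Nat.card (((-x₀) +ᵥ A) ∩ L : Set E) := by
  refine Nat.card_congr ⟨fun x => ⟨-x₀ + x.1, ?_, ?_⟩, fun y => ⟨x₀ + y.1, ?_, ?_⟩, ?_, ?_⟩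
  · exact Set.mem_vadd_set.2 ⟨x.1, x.2.1, rfl⟩
  · obtain ⟨z, hz, hzx⟩ := Set.mem_vadd_set.1 x.2.2
    have : -x₀ + x.1 = z := by rw [← hzx]; simp
    rw [this]; exact hz
  · obtain ⟨z, hz, hzy⟩ := Set.mem_vadd_set.1 y.2.1
    have : x₀ + y.1 = z := by rw [← hzy]; simp
    rw [this]; exact hz
  · exact Set.mem_vadd_set.2 ⟨y.1, y.2.2, rfl⟩
  · intro x; ext; simp
  · intro y; ext; simp

variable [MeasurableSpace E] [BorelSpace E]

/-- **Counting the points of a translate of a lattice in a cone, with a power-saving error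
term.**  (Translated version of `Fermat.Agent.S14.H98.exists_abs_card_le_sub_le`.) -/
theorem exists_abs_card_vadd_le_sub_le [Nonempty ι] {X : Set E}
    (hX : ∀ ⦃x⦄ ⦃r : ℝ⦄, x ∈ X → 0 < r → r • x ∈ X)
    {F : E → ℝ} (h₁ : ∀ x ⦃r : ℝ⦄, 0 ≤ r → F (r • x) = r ^ Fintype.card ι * (F x))
    (h₂ : IsBounded {x ∈ X | F x ≤ 1}) (h₃ : MeasurableSet {x ∈ X | F x ≤ 1})
    {U : Set E} {d : ℕ} {C : ℝ} (h₄ : GridBoundIn U (frontier {x ∈ X | F x ≤ 1}) d C)
    (hU : frontier {x ∈ X | F x ≤ 1} ⊆ U) (x₀ : E) :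
    ∃ A : ℝ, ∀ c : ℝ, 1 ≤ c →
      |(Nat.card ({x ∈ X | F x ≤ c} ∩ (x₀ +ᵥ (L : Set E)) : Set E) : ℝ)
        - c * volume.real ((b.ofZLatticeBasis ℝ L).equivFun '' {x ∈ X | F x ≤ 1})|
        ≤ A * c ^ ((d : ℝ) / Fintype.card ι) := by
  set e := (b.ofZLatticeBasis ℝ L).equivFun with he
  set eL := (b.ofZLatticeBasis ℝ L).equivFunL with heL
  set S : Set E := {x ∈ X | F x ≤ 1} with hS
  have hn : 0 < Fintype.card ι := Fintype.card_pos
  have hn' : (Fintype.card ι : ℝ) ≠ 0 := Nat.cast_ne_zero.mpr hn.ne'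
  -- the image set
  have hsb : IsBounded (e '' S) := by
    rw [← NormedSpace.isVonNBounded_iff ℝ] at h₂ ⊢
    exact Bornology.IsVonNBounded.image h₂ (eL : E →L[ℝ] ι → ℝ)
  have hsm : MeasurableSet (e '' S) :=
    eL.toHomeomorph.toMeasurableEquiv.measurableSet_image.mpr h₃
  have hfr : frontier (e '' S) = e '' frontier S := (eL.toHomeomorph.image_frontier S).symm
  have hlip : LipschitzOnWith ‖(eL : E →L[ℝ] ι → ℝ)‖₊ e U :=
    ((eL : E →L[ℝ] ι → ℝ).lipschitz).lipschitzOnWith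
  have hgrid := h₄.image hlip hU
  rw [← hfr] at hgrid
  set C' := C * ((⌈((‖(eL : E →L[ℝ] ι → ℝ)‖₊ : NNReal) : ℝ)⌉₊ + 1 : ℕ) : ℝ) ^ d with hC'
  refine ⟨3 ^ Fintype.card ι * C' * 2 ^ d, fun c hc => ?_⟩
  have hc0 : 0 < c := zero_lt_one.trans_le hc
  set r : ℝ := c ^ (Fintype.card ι : ℝ)⁻¹ with hr
  have hr1 : 1 ≤ r := Real.one_le_rpow hc (by positivity)
  have hr0 : 0 < r := zero_lt_one.trans_le hr1
  have hrn : r ^ Fintype.card ι = c := by
    rw [hr, ← Real.rpow_natCast, ← Real.rpow_mul hc0.le, inv_mul_cancel₀ hn', Real.rpow_one]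
  have hrd : r ^ d = c ^ ((d : ℝ) / Fintype.card ι) := by
    rw [hr, ← Real.rpow_natCast, ← Real.rpow_mul hc0.le, div_eq_inv_mul]
  have key := abs_card_vadd_smul_sub_le hsb hsm hgrid hr1 (e (-x₀))
  have hset : ({x ∈ X | F x ≤ c} : Set E) = r • S := by
    rw [hS, cone_smul_eq (ι := ι) hX h₁ hr0, hrn]
  have himg : e '' ((-x₀) +ᵥ r • S) = e (-x₀) +ᵥ r • (e '' S) := by
    rw [← image_smul_set]
    ext y
    simp only [Set.mem_image, Set.mem_vadd_set, vadd_eq_add]
    constructor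
    · rintro ⟨_, ⟨z, hz, rfl⟩, rfl⟩
      exact ⟨e z, ⟨z, hz, rfl⟩, by rw [map_add]⟩
    · rintro ⟨_, ⟨z, hz, rfl⟩, rfl⟩
      exact ⟨-x₀ + z, ⟨z, hz, rfl⟩, by rw [map_add]⟩
  rw [hset, card_inter_vadd_eq, card_inter_lattice_eq b, ← he, himg]
  rw [hrn] at key
  calc _ ≤ 3 ^ Fintype.card ι * C' * (2 * r) ^ d := key
    _ = 3 ^ Fintype.card ι * C' * 2 ^ d * c ^ ((d : ℝ) / Fintype.card ι) := by
        rw [mul_pow, hrd]; ring

end GeneralLattice

end Fermat.Agent.Lib.SecondIneq.H43
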