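import Fermat.Agent.S14.H43_IdealCount
import Fermat.Agent.Lib.SecondIneq.H43_Translate
import Fermat.Agent.Lib.SecondIneq.Defs

/-!
# Package SI-P1 (helper43): `Stmt_CosetCount`

The number of `x ∈ J` with `x ≡ r mod 𝔪` in the fundamental cone, of norm `≤ c`, is
`c κ₀ / (N J N 𝔪) + O(c^{1 - 1/n})`: the count of S14/H43_IdealCount for a translate of the
lattice of `J 𝔪`.

Main result: `Fermat.Agent.Lib.SecondIneq.H43.stmt_cosetCount : Stmt_CosetCount`.
-/

set_option autoImplicit false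

namespace Fermat.Agent.Lib.SecondIneq.H43

open NumberField InfinitePlace Ideal nonZeroDivisors
open NumberField.mixedEmbedding NumberField.mixedEmbedding.euclidean
  NumberField.mixedEmbedding.fundamentalCone NumberField.Units
open Fermat.Agent.S14.H98 Fermat.Agent.S14.H43 Submodule

noncomputable section

open scoped Classical Pointwise

variable (K : Type*) [Field K] [NumberField K]

/-- Count of the points of a translate of the lattice of the ideal `J` in the cone, with error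
term. -/
theorem exists_abs_card_cone_vadd_sub_le (J : (Ideal (𝓞 K))⁰) (x₀ : euclidean.mixedSpace K) :
    ∃ A : ℝ, ∀ c : ℝ, 1 ≤ c →
      |(Nat.card ({x ∈ coneOf K | normOf K x ≤ c} ∩
          (x₀ +ᵥ (latticeOf K J : Set (euclidean.mixedSpace K))) :
          Set (euclidean.mixedSpace K)) : ℝ)
        - c * (MeasureTheory.volume.real {x ∈ coneOf K | normOf K x ≤ 1} /
            ZLattice.covolume (latticeOf K J))|
        ≤ A * c ^ (1 - (Module.finrank ℚ K : ℝ)⁻¹) := by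
  let b := Module.Free.chooseBasis ℤ (latticeOf K J)
  have hcard : Fintype.card (Module.Free.ChooseBasisIndex ℤ (latticeOf K J)) =
      Module.finrank ℚ K := by
    rw [← Module.finrank_eq_card_chooseBasisIndex, ZLattice.rank ℝ (latticeOf K J),
      euclidean.finrank]
  have hn : 0 < Module.finrank ℚ K := Module.finrank_pos
  have : Nonempty (Module.Free.ChooseBasisIndex ℤ (latticeOf K J)) := by
    rw [← Fintype.card_pos_iff, hcard]; exact hn
  have hmeas : MeasurableSet {x ∈ coneOf K | normOf K x ≤ 1} := by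
    rw [setOf_cone_norm_le_one]
    exact (toMixed K).continuous.measurable (measurableSet_normLeOne K)
  obtain ⟨C, hC⟩ := gridBoundIn_frontier_cone K
  have hX : ∀ ⦃x : euclidean.mixedSpace K⦄ ⦃r : ℝ⦄, x ∈ coneOf K → 0 < r → r • x ∈ coneOf K := by
    intro x r hx hr
    rwa [Set.mem_preimage, map_smul, smul_mem_iff_mem hr.ne']
  have h₁ : ∀ (x : euclidean.mixedSpace K) ⦃r : ℝ⦄, 0 ≤ r → normOf K (r • x) =
      r ^ Fintype.card (Module.Free.ChooseBasisIndex ℤ (latticeOf K J)) * normOf K x := by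
    intro x r hr
    rw [hcard]
    simp only [normOf]
    rw [map_smul, mixedEmbedding.norm_smul, abs_of_nonneg hr]
  have h₂ : Bornology.IsBounded {x ∈ coneOf K | normOf K x ≤ 1} := by
    rw [setOf_cone_norm_le_one]
    exact (toMixed K).antilipschitz.isBounded_preimage (isBounded_normLeOne K)
  obtain ⟨A, hA⟩ := exists_abs_card_vadd_le_sub_le (L := latticeOf K J) b
    (X := coneOf K) (F := normOf K) hX h₁ h₂ hmeas hC (Set.subset_univ _) x₀
  refine ⟨A, fun c hc ↦ ?_⟩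
  have := hA c hc
  rw [hcard] at this
  rw [MeasureTheory.measureReal_def,
    ZLattice.volume_image_eq_volume_div_covolume' (latticeOf K J) b
    hmeas.nullMeasurableSet, ENNReal.toReal_div,
    ENNReal.toReal_ofReal (ZLattice.covolume_pos (latticeOf K J) MeasureTheory.volume).le,
    ← MeasureTheory.measureReal_def] at this
  have hexp : ((Module.finrank ℚ K - 1 : ℕ) : ℝ) / (Module.finrank ℚ K : ℝ) =
      1 - (Module.finrank ℚ K : ℝ)⁻¹ := by
    have hn' : (Module.finrank ℚ K : ℝ) ≠ 0 := Nat.cast_ne_zero.mpr hn.ne'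
    rw [Nat.cast_sub hn, Nat.cast_one]
    field_simp
  rwa [hexp] at this

variable {K}

/-- Membership in the lattice of an ideal, in terms of elements of the ideal. -/
theorem mem_latticeOf_iff (J : (Ideal (𝓞 K))⁰) (y : euclidean.mixedSpace K) :
    y ∈ latticeOf K J ↔ ∃ z : 𝓞 K, z ∈ (J : Ideal (𝓞 K)) ∧
      (toMixed K).symm (mixedEmbedding K (z : K)) = y := by
  rw [latticeOf, ZLattice.comap, Submodule.mem_comap]
  simp only [LinearMap.coe_restrictScalars]
  rw [mem_idealLattice]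
  simp only [FractionalIdeal.coe_mk0]
  constructor
  · rintro ⟨_, ⟨z, hz, rfl⟩, h⟩
    refine ⟨z, hz, ?_⟩
    have h' : mixedEmbedding K (z : K) = toMixed K y := h
    rw [h']
    exact (toMixed K).symm_apply_apply y
  · rintro ⟨z, hz, rfl⟩
    exact ⟨_, ⟨z, hz, rfl⟩, ((toMixed K).apply_symm_apply _).symm⟩

/-- The coset `{x ∈ J : x ≡ r mod 𝔪}` is a translate of the lattice of `J 𝔪`. -/
theorem card_coset_eq (J𝔪 : (Ideal (𝓞 K))⁰) (𝔪 J : Ideal (𝓞 K))
    (hJ𝔪 : (J𝔪 : Ideal (𝓞 K)) = J ⊓ 𝔪) (r x₀ : 𝓞 K) (hx₀J : x₀ ∈ J) (hx₀r : x₀ - r ∈ 𝔪)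
    (c : ℝ) :
    Nat.card {x : 𝓞 K // mixedEmbedding K (x : K) ∈ fundamentalCone K ∧ x ∈ J ∧ x - r ∈ 𝔪 ∧
        mixedEmbedding.norm (mixedEmbedding K (x : K)) ≤ c} =
      Nat.card ({x ∈ coneOf K | normOf K x ≤ c} ∩
        ((toMixed K).symm (mixedEmbedding K (x₀ : K)) +ᵥ
          (latticeOf K J𝔪 : Set (euclidean.mixedSpace K))) : Set (euclidean.mixedSpace K)) := by
  refine Nat.card_congr (Equiv.ofBijective
    (fun x => ⟨(toMixed K).symm (mixedEmbedding K (x.1 : K)), ?_⟩) ⟨?_, ?_⟩)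
  · obtain ⟨x, hx1, hx2, hx3, hx4⟩ := x
    refine ⟨⟨?_, ?_⟩, ?_⟩
    · simpa [coneOf] using hx1
    · simpa [normOf] using hx4
    · refine Set.mem_vadd_set.2 ⟨(toMixed K).symm (mixedEmbedding K ((x - x₀ : 𝓞 K) : K)), ?_, ?_⟩
      · rw [SetLike.mem_coe, mem_latticeOf_iff]
        refine ⟨x - x₀, ?_, rfl⟩
        rw [hJ𝔪]
        refine ⟨J.sub_mem hx2 hx₀J, ?_⟩
        have : x - x₀ = (x - r) - (x₀ - r) := by ring
        rw [this]
        exact 𝔪.sub_mem hx3 hx₀r
      · simp only [vadd_eq_add]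
        rw [← map_add, ← map_add, ← map_add]
        congr 3
        ring
  · rintro ⟨x, hx⟩ ⟨y, hy⟩ h
    simp only [Subtype.mk.injEq, EmbeddingLike.apply_eq_iff_eq] at h
    apply Subtype.ext
    exact RingOfIntegers.coe_injective (mixedEmbedding_injective K h)
  · rintro ⟨y, ⟨hy1, hy2⟩, hy3⟩
    obtain ⟨l, hl, hly⟩ := Set.mem_vadd_set.1 hy3
    rw [SetLike.mem_coe, mem_latticeOf_iff] at hl
    obtain ⟨z, hz, rfl⟩ := hl
    rw [hJ𝔪] at hz
    have hy : (toMixed K).symm (mixedEmbedding K ((x₀ + z : 𝓞 K) : K)) = y := by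
      rw [← hly]
      simp only [vadd_eq_add]
      rw [← map_add, ← map_add]
      congr 3
    refine ⟨⟨x₀ + z, ?_, J.add_mem hx₀J hz.1, ?_, ?_⟩, ?_⟩
    · have := hy1
      rw [← hy] at this
      simpa [coneOf] using this
    · have : x₀ + z - r = (x₀ - r) + z := by ring
      rw [this]
      exact 𝔪.add_mem hx₀r hz.2
    · have := hy2
      rw [← hy] at this
      simpa [normOf] using this
    · exact Subtype.ext hy

theorem coneDensity_eq (F : Type*) [Field F] [NumberField F] :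
    coneDensity F = idealDensity F * torsionOrder F := by
  have h1 : (torsionOrder F : ℝ) ≠ 0 := Nat.cast_ne_zero.mpr (torsionOrder_ne_zero F)
  have h2 : (0 : ℝ) < Real.sqrt |(discr F : ℝ)| := by
    apply Real.sqrt_pos.mpr
    exact_mod_cast abs_pos.mpr (discr_ne_zero F)
  unfold coneDensity idealDensity
  field_simp

/-- **SI-P1**: `Stmt_CosetCount`. -/
theorem stmt_cosetCount : Stmt_CosetCount := by
  intro F _ _ 𝔪 J r h𝔪 hJ hcop
  -- the ideal `J ⊓ 𝔪 = J * 𝔪`
  have hinf : J ⊓ 𝔪 = J * 𝔪 := (Ideal.mul_eq_inf_of_coprime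
    (Ideal.isCoprime_iff_sup_eq.1 hcop)).symm
  have hne : J ⊓ 𝔪 ≠ ⊥ := by
    rw [hinf]
    exact mul_ne_zero hJ h𝔪
  set J𝔪 : (Ideal (𝓞 F))⁰ := ⟨J ⊓ 𝔪, mem_nonZeroDivisors_of_ne_zero hne⟩ with hJ𝔪
  -- the base point
  obtain ⟨u, hu, v, hv, huv⟩ := Ideal.isCoprime_iff_exists.1 hcop
  have hx₀J : r * u ∈ J := J.mul_mem_left r hu
  have hx₀r : r * u - r ∈ 𝔪 := by
    have : r * u - r = -(r * v) := by
      have : u = 1 - v := by rw [← huv]; ring
      rw [this]; ring
    rw [this]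
    exact 𝔪.neg_mem (𝔪.mul_mem_left r hv)
  obtain ⟨A, hA⟩ := exists_abs_card_cone_vadd_sub_le F J𝔪
    ((toMixed F).symm (mixedEmbedding F ((r * u : 𝓞 F) : F)))
  refine ⟨A, fun c hc => ?_⟩
  have key := hA c hc
  rw [← card_coset_eq J𝔪 𝔪 J rfl r (r * u) hx₀J hx₀r c] at key
  have hvol := volume_div_covolume_mul (K := F) J𝔪
  have hnorm : (absNorm (J𝔪 : Ideal (𝓞 F)) : ℝ) = (absNorm J : ℝ) * (absNorm 𝔪 : ℝ) := by
    rw [hJ𝔪]
    simp only
    rw [hinf, map_mul, Nat.cast_mul]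
  have hJ0 : (absNorm J : ℝ) ≠ 0 := Nat.cast_ne_zero.mpr (absNorm_eq_zero_iff.not.mpr hJ)
  have h𝔪0 : (absNorm 𝔪 : ℝ) ≠ 0 := Nat.cast_ne_zero.mpr (absNorm_eq_zero_iff.not.mpr h𝔪)
  have hmain : MeasureTheory.volume.real {x ∈ coneOf F | normOf F x ≤ 1} /
      ZLattice.covolume (latticeOf F J𝔪) =
      coneDensity F / ((absNorm J : ℝ) * (absNorm 𝔪 : ℝ)) := by
    rw [coneDensity_eq, ← hvol, hnorm]
    field_simp
  rwa [hmain] at key

end

end Fermat.Agent.Lib.SecondIneq.H43
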