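import Fermat.Agent.Lib.SecondIneq.H31_RayCard
import Fermat.Agent.Lib.SecondIneq.H43_CosetCount
import Mathlib.LinearAlgebra.FreeModule.IdealQuotient

/-!
# Package SI-RC: `Stmt_RayCount`

The ideals prime to `𝔪` in a fibre of a ray class map, of norm `≤ t`: `κ t + O(t^{1-1/n})`, with
`κ > 0` independent of the fibre.
-/

namespace Fermat.Agent.Lib.SecondIneq.H31

open NumberField Ideal NumberField.mixedEmbedding
open scoped nonZeroDivisors

lemma coneDensity_pos (F : Type*) [Field F] [NumberField F] : 0 < coneDensity F := by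
  unfold coneDensity
  have hd : (0 : ℝ) < |(discr F : ℝ)| := by
    rw [abs_pos]
    exact_mod_cast discr_ne_zero F
  have := Units.regulator_pos F
  have hpi := Real.pi_pos
  positivity

theorem stmt_RayCount_of (hC : Stmt_CosetCount) : Stmt_RayCount := by
  intro F _ _ 𝔪 A _ _ ψ h𝔪 hψ
  classical
  -- representatives of the ideal classes, prime to `𝔪`
  choose J₀ hJ₀c hJ₀cl using fun d => exists_isCoprime_mk0_eq h𝔪 d
  let J : ClassGroup (𝓞 F) → Ideal (𝓞 F) := fun d => (J₀ d : Ideal (𝓞 F))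
  have hJ0 : ∀ d, J d ≠ ⊥ := fun d => nonZeroDivisors.coe_ne_zero (J₀ d)
  have hJc : ∀ d, IsCoprime (J d) 𝔪 := hJ₀c
  have hJcl : ∀ d, ClassGroup.mk0 ⟨J d, mem_nonZeroDivisors_of_ne_zero (hJ0 d)⟩ = d := hJ₀cl
  -- ideals with prescribed image
  choose 𝔟 h𝔟0 h𝔟c h𝔟ψ using fun x : A => hψ.surj x⁻¹
  haveI : Finite (𝓞 F ⧸ 𝔪) := Ideal.finiteQuotientOfFreeOfNeBot 𝔪 h𝔪
  letI : Fintype {i // idxP 𝔪 ψ J i} := Fintype.ofFinite _
  letI : Fintype A := Fintype.ofFinite A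
  -- the constants of the coset counts
  choose C hC' using fun (x : A) (i : {i // idxP 𝔪 ψ J i}) =>
    hC F 𝔪 (𝔟 x * J i.1.1) (Quotient.out i.1.2) h𝔪 (mul_ne_zero (h𝔟0 x) (hJ0 _))
      ((h𝔟c x).mul_left (hJc _))
  set e : ℝ := 1 - (Module.finrank ℚ F : ℝ)⁻¹ with he
  set w : ℝ := (Units.torsionOrder F : ℝ) with hw
  have hwpos : 0 < w := by
    rw [hw]
    exact_mod_cast Units.torsionOrder_pos F
  have h𝔪pos : (0 : ℝ) < (absNorm 𝔪 : ℝ) := by
    have : absNorm 𝔪 ≠ 0 := by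
      rw [Ne, Ideal.absNorm_eq_zero_iff]
      exact h𝔪
    exact_mod_cast Nat.pos_of_ne_zero this
  set κ₀ : ℝ := coneDensity F / (absNorm 𝔪 : ℝ) with hκ₀
  have hκ₀pos : 0 < κ₀ := div_pos (coneDensity_pos F) h𝔪pos
  have hne : Nonempty {i // idxP 𝔪 ψ J i} := by
    have hpr : (J 1).IsPrincipal :=
      (ClassGroup.mk0_eq_one_iff (mem_nonZeroDivisors_of_ne_zero (hJ0 1))).mp (hJcl 1)
    obtain ⟨β, hβ⟩ := hpr.principal
    have hβ' : J 1 = Ideal.span {β} := hβ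
    have hβ0 : β ≠ 0 := by
      rintro rfl
      apply hJ0 1
      rw [hβ']
      simp
    refine ⟨⟨(1, Ideal.Quotient.mk 𝔪 β), β, hβ0, rfl, ?_, ?_⟩⟩
    · rw [← hβ']
      exact hJc 1
    · rw [← hβ']
  refine ⟨Fintype.card {i // idxP 𝔪 ψ J i} * κ₀ / w,
    (∑ x : A, ∑ i : {i // idxP 𝔪 ψ J i}, |C x i| * (absNorm (𝔟 x * J i.1.1) : ℝ) ^ e) / w,
    ?_, ?_⟩
  · have : 0 < Fintype.card {i // idxP 𝔪 ψ J i} := Fintype.card_pos
    positivity
  · intro x t ht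
    have ht0 : (0 : ℝ) ≤ t := by linarith
    have hcard := card_fib_mul_torsion hψ hJ0 hJc hJcl (h𝔟0 x) (h𝔟c x) (h𝔟ψ x) t
    have hcardR : (Nat.card {I : Ideal (𝓞 F) // fibP 𝔪 ψ x t I} : ℝ) * w =
        ∑ i : {i // idxP 𝔪 ψ J i}, (Nat.card {α : 𝓞 F // cosP 𝔪 J (𝔟 x) t i.1 α} : ℝ) := by
      rw [hw]
      exact_mod_cast hcard
    have hterm : ∀ i : {i // idxP 𝔪 ψ J i},
        |(Nat.card {α : 𝓞 F // cosP 𝔪 J (𝔟 x) t i.1 α} : ℝ) - t * κ₀| ≤
          |C x i| * (absNorm (𝔟 x * J i.1.1) : ℝ) ^ e * t ^ e := by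
      intro i
      have hNpos : (0 : ℝ) < (absNorm (𝔟 x * J i.1.1) : ℝ) := by
        have : absNorm (𝔟 x * J i.1.1) ≠ 0 := by
          rw [Ne, Ideal.absNorm_eq_zero_iff]
          exact mul_ne_zero (h𝔟0 x) (hJ0 _)
        exact_mod_cast Nat.pos_of_ne_zero this
      have hN1 : (1 : ℝ) ≤ (absNorm (𝔟 x * J i.1.1) : ℝ) := by
        exact_mod_cast Nat.one_le_iff_ne_zero.mpr (by
          rw [Ne, Ideal.absNorm_eq_zero_iff]
          exact mul_ne_zero (h𝔟0 x) (hJ0 _))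
      have h1 := hC' x i (t * (absNorm (𝔟 x * J i.1.1) : ℝ)) (by nlinarith)
      have hmain : t * (absNorm (𝔟 x * J i.1.1) : ℝ) *
          (coneDensity F / ((absNorm (𝔟 x * J i.1.1) : ℝ) * (absNorm 𝔪 : ℝ))) = t * κ₀ := by
        rw [hκ₀]
        field_simp
      rw [hmain] at h1
      refine h1.trans ?_
      rw [Real.mul_rpow ht0 hNpos.le]
      have hle : C x i ≤ |C x i| := le_abs_self _
      have hnn : 0 ≤ t ^ e * (absNorm (𝔟 x * J i.1.1) : ℝ) ^ e :=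
        mul_nonneg (Real.rpow_nonneg ht0 _) (Real.rpow_nonneg hNpos.le _)
      calc C x i * (t ^ e * (absNorm (𝔟 x * J i.1.1) : ℝ) ^ e)
          ≤ |C x i| * (t ^ e * (absNorm (𝔟 x * J i.1.1) : ℝ) ^ e) :=
            mul_le_mul_of_nonneg_right hle hnn
        _ = |C x i| * (absNorm (𝔟 x * J i.1.1) : ℝ) ^ e * t ^ e := by ring
    have hsum : |(Nat.card {I : Ideal (𝓞 F) // fibP 𝔪 ψ x t I} : ℝ) * w -
        Fintype.card {i // idxP 𝔪 ψ J i} * κ₀ * t| ≤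
        (∑ i : {i // idxP 𝔪 ψ J i}, |C x i| * (absNorm (𝔟 x * J i.1.1) : ℝ) ^ e) * t ^ e := by
      have h2 : (Fintype.card {i // idxP 𝔪 ψ J i} : ℝ) * κ₀ * t =
          ∑ _i : {i // idxP 𝔪 ψ J i}, t * κ₀ := by
        rw [Finset.sum_const, Finset.card_univ, nsmul_eq_mul]
        ring
      rw [hcardR, h2, ← Finset.sum_sub_distrib, Finset.sum_mul]
      exact (Finset.abs_sum_le_sum_abs _ _).trans (Finset.sum_le_sum fun i _ => hterm i)
    have hx : (∑ i : {i // idxP 𝔪 ψ J i}, |C x i| * (absNorm (𝔟 x * J i.1.1) : ℝ) ^ e) ≤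
        ∑ y : A, ∑ i : {i // idxP 𝔪 ψ J i}, |C y i| * (absNorm (𝔟 y * J i.1.1) : ℝ) ^ e := by
      refine Finset.single_le_sum (f := fun y : A =>
        ∑ i : {i // idxP 𝔪 ψ J i}, |C y i| * (absNorm (𝔟 y * J i.1.1) : ℝ) ^ e)
        (fun y _ => Finset.sum_nonneg fun i _ => ?_) (Finset.mem_univ x)
      exact mul_nonneg (abs_nonneg _) (Real.rpow_nonneg (Nat.cast_nonneg _) _)
    have hte : 0 ≤ t ^ e := Real.rpow_nonneg ht0 _
    have hfinal : |(Nat.card {I : Ideal (𝓞 F) // fibP 𝔪 ψ x t I} : ℝ) -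
        Fintype.card {i // idxP 𝔪 ψ J i} * κ₀ / w * t| =
        |(Nat.card {I : Ideal (𝓞 F) // fibP 𝔪 ψ x t I} : ℝ) * w -
          Fintype.card {i // idxP 𝔪 ψ J i} * κ₀ * t| / w := by
      rw [← abs_of_pos hwpos, ← abs_div, abs_of_pos hwpos]
      congr 1
      field_simp
    change |(Nat.card {I : Ideal (𝓞 F) // fibP 𝔪 ψ x t I} : ℝ) -
        Fintype.card {i // idxP 𝔪 ψ J i} * κ₀ / w * t| ≤ _
    rw [hfinal, div_mul_eq_mul_div]
    exact div_le_div_of_nonneg_right (hsum.trans (mul_le_mul_of_nonneg_right hx hte)) hwpos.le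

theorem stmt_RayCount : Stmt_RayCount := stmt_RayCount_of H43.stmt_cosetCount

end Fermat.Agent.Lib.SecondIneq.H31
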