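import Fermat.Agent.Lib.SecondIneq.Defs

/-!
# Package SI-P2 (helper43): `Stmt_GenCount`

A nonzero principal ideal has exactly `w_F` generators in the fundamental cone (from Mathlib's
`integerSetEquiv`).

Main result: `Fermat.Agent.Lib.SecondIneq.H43.stmt_genCount : Stmt_GenCount`.
-/

set_option autoImplicit false

namespace Fermat.Agent.Lib.SecondIneq.H43

open NumberField Ideal nonZeroDivisors Submodule
open NumberField.mixedEmbedding NumberField.mixedEmbedding.fundamentalCone NumberField.Units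

variable {K : Type*} [Field K] [NumberField K]

/-- The generators of `I` in the fundamental cone, as a subtype of `integerSet K`. -/
noncomputable def genEquiv (I : Ideal (𝓞 K)) (hI : I ≠ ⊥) (hp : I.IsPrincipal) :
    {x : 𝓞 K // mixedEmbedding K (x : K) ∈ fundamentalCone K ∧ Ideal.span {x} = I} ≃
      {a : integerSet K // (integerSetEquiv K a).1 =
        (⟨⟨I, mem_nonZeroDivisors_of_ne_zero hI⟩, hp⟩ :
          {J : (Ideal (𝓞 K))⁰ // IsPrincipal J.val})} := by
  refine Equiv.ofBijective (fun x => ⟨⟨mixedEmbedding K (x.1 : K),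
    mem_integerSet.2 ⟨x.2.1, x.1, rfl⟩⟩, ?_⟩) ⟨?_, ?_⟩
  · apply Subtype.ext
    apply Subtype.ext
    rw [integerSetEquiv_apply_fst, preimageOfMemIntegerSet_mixedEmbedding]
    exact x.2.2
  · rintro ⟨x, hx⟩ ⟨y, hy⟩ h
    simp only [Subtype.mk.injEq] at h
    apply Subtype.ext
    exact RingOfIntegers.coe_injective (mixedEmbedding_injective K h)
  · rintro ⟨a, ha⟩
    have h1 : mixedEmbedding K ((preimageOfMemIntegerSet a : 𝓞 K) : K) = (a : mixedSpace K) :=
      mixedEmbedding_preimageOfMemIntegerSet a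
    refine ⟨⟨(preimageOfMemIntegerSet a : 𝓞 K), ?_, ?_⟩, ?_⟩
    · rw [h1]; exact a.2.1
    · have := congrArg (fun J : {J : (Ideal (𝓞 K))⁰ // IsPrincipal J.val} => (J.1 : Ideal (𝓞 K))) ha
      simpa [integerSetEquiv_apply_fst] using this
    · apply Subtype.ext
      apply Subtype.ext
      exact h1

/-- **SI-P2**: `Stmt_GenCount`. -/
theorem stmt_genCount : Stmt_GenCount := by
  intro F _ _ I hI hp
  set I' : {J : (Ideal (𝓞 F))⁰ // IsPrincipal J.val} :=
    ⟨⟨I, mem_nonZeroDivisors_of_ne_zero hI⟩, hp⟩ with hI'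
  have e2 : {a : integerSet F // (integerSetEquiv F a).1 = I'} ≃
      {p : {J : (Ideal (𝓞 F))⁰ // IsPrincipal J.val} × torsion F // p.1 = I'} :=
    (integerSetEquiv F).subtypeEquiv (fun a => Iff.rfl)
  have e3 : {p : {J : (Ideal (𝓞 F))⁰ // IsPrincipal J.val} × torsion F // p.1 = I'} ≃
      torsion F :=
    { toFun := fun p => p.1.2
      invFun := fun ζ => ⟨(I', ζ), rfl⟩
      left_inv := by
        rintro ⟨⟨J, ζ⟩, h⟩
        simp only at h
        subst h
        rfl
      right_inv := fun ζ => rfl }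
  rw [Nat.card_congr ((genEquiv I hI hp).trans (e2.trans e3))]
  rfl

end Fermat.Agent.Lib.SecondIneq.H43
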